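import Mathlib
import Fermat.Agent.S30.E2.JInputsAll
import Fermat.Agent.S30.Haupt.K1
import Fermat.Agent.S34.ModelNormalDedekind

/-!
# PROGRAM U, (M5) brick (A2): the level-`M` inputs for the Hauptmodul coordinates `t₂`, `t₃`

Twin of `S34/LevelM.lean` for the coordinates used in residue characteristic `3` and `2`:
`u = h₂ = HorizTwo.h2E M E h` (`2 ∣ M`, `2 ∈ Oˣ`) and `u = h₃ = HorizThree.h3E M E h`
(`3 ∣ M`, `3 ∈ Oˣ`), with the chart at infinity written at the coordinate `s_r = h_r⁻¹`
(`HorizTwo.s2E`, `HorizThree.s3E`).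

* `ChartFacts E π u s` : the bundle of conclusions of the Model theorem for the pair of charts
  `(u, s)`, `s = u⁻¹`: transcendence, finiteness, `π` prime in both chart rings, both special
  fibres Dedekind domains, regular at every closed point.
* `chartFacts_of_model` : `ChartFacts` from the hypotheses of `Model.main_a` (any `L`, `u`).
* `chartFacts_jE` : the coordinate `j` (`1728 ∈ Oˣ`), same content as `LevelM.factsC`.
* `chartFacts_two`, `chartFacts_three` : the coordinates `h₂`, `h₃` from the `u = j` inputs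
  `JInputs M O E p` (only `fin`, `gauss` are used) and `2 ∈ Oˣ`, resp. `3 ∈ Oˣ`.
* `modelInputs_two`, `modelInputs_three` : the hypotheses of the Model theorem themselves.
* `exists_levelM_two`, `exists_levelM_three` : the arithmetic form, uniformly in the number
  field `E ⊇ S₀`, for `O = A ∩ E`, `A` over a prime `ℓ ∤ M`, `ℓ ≠ 2` (resp. `ℓ ≠ 3`).
-/

set_option autoImplicit false
set_option synthInstance.maxHeartbeats 400000
set_option linter.style.haveILetI false
set_option linter.unusedSectionVars false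

noncomputable section

open Polynomial IntermediateField ModularCurve

namespace Fermat.Agent.S34.HauptU.LevelMAux

open Fermat.Agent.S18.K1Defs Fermat.Agent.S18.K1Main Fermat.Agent.S30 Fermat.Agent.S30.Model
  Fermat.Agent.S30.Haupt Fermat.Agent.S34.ModelNormal

local notation "Qb" => AlgebraicClosure ℚ

/-! ### The bundle of conclusions, for a general field and coordinate -/

section Model

variable {O E L : Type*} [CommRing O] [IsDomain O] [IsDiscreteValuationRing O]
  [Field E] [CharZero E] [Algebra O E] [IsFractionRing O E]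
  [Field L] [Algebra E L] [Algebra O L] [IsScalarTower O E L]

/-- **The level-`M` facts** for the pair of charts `Spec` (integral closure of `O[u]`) and
`Spec` (integral closure of `O[s]`), `s = u⁻¹`. -/
structure ChartFacts (E : Type*) {O L : Type*} [CommRing O] [Field E] [Field L] [Algebra E L]
    [Algebra O L] (π : O) (u s : L) : Prop where
  inv_eq : s = u⁻¹
  transcendental : Transcendental E u
  transcendental_inv : Transcendental E s
  finite : FiniteDimensional (IntermediateField.adjoin E {u}) L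
  finite_inv : FiniteDimensional (IntermediateField.adjoin E {s}) L
  prime_zero : Prime (piC u π)
  prime_inf : Prime (piC s π)
  dedekind_zero :
    IsDedekindDomain (integralClosure (Algebra.adjoin O {u}) L ⧸ Ideal.span {piC u π})
  dedekind_inf :
    IsDedekindDomain (integralClosure (Algebra.adjoin O {s}) L ⧸ Ideal.span {piC s π})
  regAt_zero : ∀ Q : Ideal (integralClosure (Algebra.adjoin O {u}) L), Q.IsMaximal →
    piC u π ∈ Q → RegNB.RegAt (piC u π) Q
  regAt_inf : ∀ Q : Ideal (integralClosure (Algebra.adjoin O {s}) L), Q.IsMaximal →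
    piC s π ∈ Q → RegNB.RegAt (piC s π) Q

omit [IsDomain O] [IsDiscreteValuationRing O] [CharZero E] [Algebra O E] [IsFractionRing O E]
  [IsScalarTower O E L] in
/-- The special fibre of the `u`-chart is integrally closed. -/
theorem ChartFacts.normal_zero {π : O} {u s : L} (h : ChartFacts E π u s) :
    IsIntegrallyClosed (integralClosure (Algebra.adjoin O {u}) L ⧸ Ideal.span {piC u π}) :=
  have := h.dedekind_zero
  inferInstance

omit [IsDomain O] [IsDiscreteValuationRing O] [CharZero E] [Algebra O E] [IsFractionRing O E]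
  [IsScalarTower O E L] in
/-- The special fibre of the `s`-chart is integrally closed. -/
theorem ChartFacts.normal_inf {π : O} {u s : L} (h : ChartFacts E π u s) :
    IsIntegrallyClosed (integralClosure (Algebra.adjoin O {s}) L ⧸ Ideal.span {piC s π}) :=
  have := h.dedekind_inf
  inferInstance

/-- **`ChartFacts` from the hypotheses of the Model theorem.** -/
theorem chartFacts_of_model (π : O) (hπ : Irreducible π) (u : L) (hu : Transcendental E u)
    [hfin : FiniteDimensional (IntermediateField.adjoin E {u}) L] (halg : AlgClosedIn E L)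
    (hi : GaussUnram (E := E) π u)
    (S : Finset O) (hS : ∀ c ∈ S, ∀ c' ∈ S, c ≠ c' → IsUnit (c - c'))
    (hii : HorizUnram (E := E) S u) (s : L) (hs : s = u⁻¹) : ChartFacts E π u s := by
  subst hs
  have hu' : Transcendental E u⁻¹ := fun h => hu (by simpa using h.inv)
  have hK : IntermediateField.adjoin E {u⁻¹} = IntermediateField.adjoin E {u} := by
    apply le_antisymm
    · rw [IntermediateField.adjoin_simple_le_iff]
      exact inv_mem (IntermediateField.mem_adjoin_simple_self E u)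
    · rw [IntermediateField.adjoin_simple_le_iff]
      have := inv_mem (IntermediateField.mem_adjoin_simple_self E u⁻¹)
      simpa using this
  have hfin' : FiniteDimensional (IntermediateField.adjoin E {u⁻¹}) L := by
    rw [hK]; exact hfin
  have hp := main_a_prime π hπ u hu halg hi S hS hii
  have hd := main_a_dedekind π hπ u hu halg hi S hS hii
  exact
    { inv_eq := rfl
      transcendental := hu
      transcendental_inv := hu'
      finite := hfin
      finite_inv := hfin'
      prime_zero := hp.1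
      prime_inf := hp.2
      dedekind_zero := hd.1
      dedekind_inf := hd.2
      regAt_zero := fun Q hQ hπQ => regAt_zero π hπ u hu hi S hS hii Q hQ hπQ
      regAt_inf := fun Q hQ hπQ => regAt_inf_all π hπ u hu halg hi S hS hii Q hQ hπQ }

end Model

/-! ### The coordinates `j`, `h₂`, `h₃` of the level-`M` modular function field -/

section Generic

variable (M : ℕ) [NeZero M] (E : IntermediateField ℚ Qb)
  {O : Type} [CommRing O] [IsDomain O] [IsDiscreteValuationRing O]
  [Algebra O E] [IsFractionRing O E] [Algebra O (LE M E)] [IsScalarTower O E (LE M E)]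

open Classical in
/-- A two-element set `{0, -c}` with `c` a unit has unit differences. -/
theorem isUnit_sub_of_mem_pair {c : O} (hc : IsUnit c) :
    ∀ a ∈ ({0, -c} : Finset O), ∀ a' ∈ ({0, -c} : Finset O), a ≠ a' → IsUnit (a - a') := by
  intro a ha a' ha' hne
  simp only [Finset.mem_insert, Finset.mem_singleton] at ha ha'
  rcases ha with rfl | rfl <;> rcases ha' with rfl | rfl
  · exact absurd rfl hne
  · rw [zero_sub, neg_neg]; exact hc
  · rw [sub_zero]; exact hc.neg
  · exact absurd rfl hne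

open Classical in
/-- **The hypotheses of the Model theorem for `(LE M E, h₂)`**, `2 ∣ M`, `2 ∈ Oˣ`. -/
theorem modelInputs_two (h2M : 2 ∣ M) {p : ℕ} (h : JInputs M O E p) (h2 : IsUnit (2 : O))
    (π : O) (hπ : Irreducible π) :
    Transcendental E (HorizTwo.h2E M E h2M) ∧
      FiniteDimensional (IntermediateField.adjoin E {HorizTwo.h2E M E h2M}) (LE M E) ∧
      GaussUnram (E := E) π (HorizTwo.h2E M E h2M) ∧
      (∀ a ∈ ({0, -64} : Finset O), ∀ a' ∈ ({0, -64} : Finset O), a ≠ a' → IsUnit (a - a')) ∧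
      HorizUnram (E := E) ({0, -64} : Finset O) (HorizTwo.h2E M E h2M) := by
  haveI := h.fin
  obtain ⟨hT, hFD, hG⟩ := Gauss.gaussUnram_t2 π hπ h2 (jE M E) (K1.transcendental_jE M E)
    (h.gauss π hπ) (HorizTwo.h2E M E h2M) (HorizTwo.jE_mul_h2E M E h2M (jE M E) rfl)
  haveI := hFD
  have h64 : IsUnit (64 : O) := by
    have : (64 : O) = 2 ^ 6 := by norm_num
    rw [this]
    exact h2.pow 6
  exact ⟨hT, hFD, hG, isUnit_sub_of_mem_pair h64,
    HorizTwo.horizUnram_h2 M E h2M {0, -64}
      ⟨0, by simp, map_zero _⟩ ⟨-64, by simp, by rw [map_neg, map_ofNat]⟩⟩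

open Classical in
/-- **The hypotheses of the Model theorem for `(LE M E, h₃)`**, `3 ∣ M`, `3 ∈ Oˣ`. -/
theorem modelInputs_three (h3M : 3 ∣ M) {p : ℕ} (h : JInputs M O E p) (h3 : IsUnit (3 : O))
    (π : O) (hπ : Irreducible π) :
    Transcendental E (HorizThree.h3E M E h3M) ∧
      FiniteDimensional (IntermediateField.adjoin E {HorizThree.h3E M E h3M}) (LE M E) ∧
      GaussUnram (E := E) π (HorizThree.h3E M E h3M) ∧
      (∀ a ∈ ({0, -27} : Finset O), ∀ a' ∈ ({0, -27} : Finset O), a ≠ a' → IsUnit (a - a')) ∧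
      HorizUnram (E := E) ({0, -27} : Finset O) (HorizThree.h3E M E h3M) := by
  haveI := h.fin
  obtain ⟨hT, hFD, hG⟩ := Gauss.gaussUnram_t3 π hπ h3 (jE M E) (K1.transcendental_jE M E)
    (h.gauss π hπ) (HorizThree.h3E M E h3M) (HorizThree.jE_mul_h3E M E h3M (jE M E) rfl)
  haveI := hFD
  have h27 : IsUnit (27 : O) := by
    have : (27 : O) = 3 ^ 3 := by norm_num
    rw [this]
    exact h3.pow 3
  exact ⟨hT, hFD, hG, isUnit_sub_of_mem_pair h27,
    HorizThree.horizUnram_h3 M E h3M {0, -27}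
      ⟨0, by simp, map_zero _⟩ ⟨-27, by simp, by rw [map_neg, map_ofNat]⟩⟩

/-- `s₂ = h₂⁻¹`. -/
theorem s2E_eq_inv (h2M : 2 ∣ M) : HorizTwo.s2E M E h2M = (HorizTwo.h2E M E h2M)⁻¹ := by
  rw [HorizTwo.h2E, inv_inv]

/-- `s₃ = h₃⁻¹`. -/
theorem s3E_eq_inv (h3M : 3 ∣ M) : HorizThree.s3E M E h3M = (HorizThree.h3E M E h3M)⁻¹ := by
  rw [HorizThree.h3E, inv_inv]

/-- **The level-`M` facts for the coordinate `h₂`** (charts `h₂` and `s₂ = 1/h₂`), `2 ∣ M`,
`2 ∈ Oˣ`, from the `u = j` inputs at level `M`. -/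
theorem chartFacts_two (h2M : 2 ∣ M) {p : ℕ} (h : JInputs M O E p) (h2 : IsUnit (2 : O))
    (π : O) (hπ : Irreducible π) :
    ChartFacts E π (HorizTwo.h2E M E h2M) (HorizTwo.s2E M E h2M) := by
  classical
  obtain ⟨hT, hFD, hG, hS, hH⟩ := modelInputs_two M E h2M h h2 π hπ
  haveI := hFD
  exact chartFacts_of_model π hπ _ hT (algClosedIn_laurent (LE M E)) hG _ hS hH _
    (s2E_eq_inv M E h2M)

/-- **The level-`M` facts for the coordinate `h₃`** (charts `h₃` and `s₃ = 1/h₃`), `3 ∣ M`,
`3 ∈ Oˣ`, from the `u = j` inputs at level `M`. -/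
theorem chartFacts_three (h3M : 3 ∣ M) {p : ℕ} (h : JInputs M O E p) (h3 : IsUnit (3 : O))
    (π : O) (hπ : Irreducible π) :
    ChartFacts E π (HorizThree.h3E M E h3M) (HorizThree.s3E M E h3M) := by
  classical
  obtain ⟨hT, hFD, hG, hS, hH⟩ := modelInputs_three M E h3M h h3 π hπ
  haveI := hFD
  exact chartFacts_of_model π hπ _ hT (algClosedIn_laurent (LE M E)) hG _ hS hH _
    (s3E_eq_inv M E h3M)

/-- **The level-`M` facts for the coordinate `j`** (charts `j` and `1/j`), `1728 ∈ Oˣ`. -/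
theorem chartFacts_jE {p : ℕ} (h : JInputs M O E p) (h1728 : IsUnit (1728 : O))
    (π : O) (hπ : Irreducible π) : ChartFacts E π (jE M E) (jE M E)⁻¹ := by
  classical
  haveI := h.fin
  have hS : ∀ c ∈ ({0, 1728} : Finset O), ∀ c' ∈ ({0, 1728} : Finset O), c ≠ c' →
      IsUnit (c - c') := by
    intro c hc c' hc' hne
    simp only [Finset.mem_insert, Finset.mem_singleton] at hc hc'
    rcases hc with rfl | rfl <;> rcases hc' with rfl | rfl
    · exact absurd rfl hne
    · rw [zero_sub]; exact h1728.neg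
    · rw [sub_zero]; exact h1728
    · exact absurd rfl hne
  exact chartFacts_of_model π hπ _ (K1.transcendental_jE M E) (algClosedIn_laurent (LE M E))
    (h.gauss π hπ) _ hS (h.horiz _ (by simp) (by simp)) _ rfl

end Generic

/-! ### The arithmetic instance `O = A ∩ E` -/

section Arithmetic

variable (A : ValuationSubring Qb)

/-- `n` prime to the residue characteristic is a unit of `A ∩ E`. -/
theorem isUnit_ofNat_OE (E : IntermediateField ℚ Qb) {ℓ : ℕ} (hA : A.LiesOverPrime ℓ) (n : ℕ)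
    (hn : Nat.Coprime n ℓ) : IsUnit ((n : ℕ) : OE A E) :=
  isUnit_natCast_OE A E hA n hn

/-- **The `u = j` inputs exist uniformly in the number field** at every level `M` prime to the
residue characteristic `ℓ` (no condition `ℓ > 3`). -/
theorem exists_jInputsC (M : ℕ) [NeZero M] {ℓ : ℕ} [Fact ℓ.Prime] (hℓM : ¬ ℓ ∣ M)
    (hA : A.LiesOverPrime ℓ) :
    ∃ S₀ : Finset Qb, ∀ (E : IntermediateField ℚ Qb) [FiniteDimensional ℚ E]
      [IsDiscreteValuationRing (OE A E)], (∀ s ∈ S₀, s ∈ E) →
      ∀ p : ℕ, JInputsC M (OE A E) E p := by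
  have hℓp : ℓ.Prime := Fact.out
  have : NeZero (M : Qb) := ⟨Nat.cast_ne_zero.mpr (NeZero.ne M)⟩
  obtain ⟨z, hz⟩ := HasEnoughRootsOfUnity.exists_primitiveRoot Qb M
  have hMℓ : Nat.Coprime M ℓ := Nat.coprime_comm.mp ((Nat.Prime.coprime_iff_not_dvd hℓp).mpr hℓM)
  exact ⟨{z}, fun E _ _ hE p =>
    E2.JInputsAll.jInputsC_OE M A E hA hMℓ hz (hE z (Finset.mem_singleton_self z)) p⟩

/-- **The level-`M` facts for `h₂`, uniformly in the number field**: `2 ∣ M`, `A` over a prime
`ℓ ≠ 2`, `ℓ ∤ M` (in Program U: `ℓ = 3`). -/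
theorem exists_levelM_two (M : ℕ) [NeZero M] (h2M : 2 ∣ M) {ℓ : ℕ} [Fact ℓ.Prime]
    (hℓM : ¬ ℓ ∣ M) (hℓ2 : ℓ ≠ 2) (hA : A.LiesOverPrime ℓ) :
    ∃ S₀ : Finset Qb, ∀ (E : IntermediateField ℚ Qb) [FiniteDimensional ℚ E]
      [IsDiscreteValuationRing (OE A E)], (∀ s ∈ S₀, s ∈ E) →
      ∀ π : OE A E, Irreducible π →
      letI := algebraOL (OE A E) E (LE M E)
      ChartFacts E π (HorizTwo.h2E M E h2M) (HorizTwo.s2E M E h2M) := by
  have hℓp : ℓ.Prime := Fact.out
  obtain ⟨S₀, hS₀⟩ := exists_jInputsC A M hℓM hA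
  refine ⟨S₀, fun E _ _ hE π hπ => ?_⟩
  letI := algebraOL (OE A E) E (LE M E)
  haveI := isScalarTower_OL (OE A E) E (LE M E)
  have h' : JInputs M (OE A E) E 0 := hS₀ E hE 0
  have h2 : IsUnit (2 : OE A E) := by
    have hc : Nat.Coprime 2 ℓ := (Nat.coprime_primes Nat.prime_two hℓp).mpr (Ne.symm hℓ2)
    have := isUnit_natCast_OE A E hA 2 hc
    exact_mod_cast this
  exact chartFacts_two M E h2M h' h2 π hπ

/-- **The level-`M` facts for `h₃`, uniformly in the number field**: `3 ∣ M`, `A` over a prime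
`ℓ ≠ 3`, `ℓ ∤ M` (in Program U: `ℓ = 2`). -/
theorem exists_levelM_three (M : ℕ) [NeZero M] (h3M : 3 ∣ M) {ℓ : ℕ} [Fact ℓ.Prime]
    (hℓM : ¬ ℓ ∣ M) (hℓ3 : ℓ ≠ 3) (hA : A.LiesOverPrime ℓ) :
    ∃ S₀ : Finset Qb, ∀ (E : IntermediateField ℚ Qb) [FiniteDimensional ℚ E]
      [IsDiscreteValuationRing (OE A E)], (∀ s ∈ S₀, s ∈ E) →
      ∀ π : OE A E, Irreducible π →
      letI := algebraOL (OE A E) E (LE M E)
      ChartFacts E π (HorizThree.h3E M E h3M) (HorizThree.s3E M E h3M) := by
  have hℓp : ℓ.Prime := Fact.out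
  obtain ⟨S₀, hS₀⟩ := exists_jInputsC A M hℓM hA
  refine ⟨S₀, fun E _ _ hE π hπ => ?_⟩
  letI := algebraOL (OE A E) E (LE M E)
  haveI := isScalarTower_OL (OE A E) E (LE M E)
  have h' : JInputs M (OE A E) E 0 := hS₀ E hE 0
  have h3 : IsUnit (3 : OE A E) := by
    have hc : Nat.Coprime 3 ℓ := (Nat.coprime_primes Nat.prime_three hℓp).mpr (Ne.symm hℓ3)
    have := isUnit_natCast_OE A E hA 3 hc
    exact_mod_cast this
  exact chartFacts_three M E h3M h' h3 π hπ

/-- **The level-`M` facts for `j`, uniformly in the number field**: `A` over a prime `ℓ > 3`,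
`ℓ ∤ M`. -/
theorem exists_levelM_jE (M : ℕ) [NeZero M] {ℓ : ℕ} [Fact ℓ.Prime]
    (hℓM : ¬ ℓ ∣ M) (h3 : 3 < ℓ) (hA : A.LiesOverPrime ℓ) :
    ∃ S₀ : Finset Qb, ∀ (E : IntermediateField ℚ Qb) [FiniteDimensional ℚ E]
      [IsDiscreteValuationRing (OE A E)], (∀ s ∈ S₀, s ∈ E) →
      ∀ π : OE A E, Irreducible π →
      letI := algebraOL (OE A E) E (LE M E)
      ChartFacts E π (jE M E) (jE M E)⁻¹ := by
  have hℓp : ℓ.Prime := Fact.out
  obtain ⟨S₀, hS₀⟩ := exists_jInputsC A M hℓM hA
  refine ⟨S₀, fun E _ _ hE π hπ => ?_⟩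
  letI := algebraOL (OE A E) E (LE M E)
  haveI := isScalarTower_OL (OE A E) E (LE M E)
  have h' : JInputs M (OE A E) E 0 := hS₀ E hE 0
  exact chartFacts_jE M E h' (isUnit_1728_OE A E hℓp hA h3) π hπ

end Arithmetic

end Fermat.Agent.S34.HauptU.LevelMAux
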