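import Mathlib

/-!
# Program U, `ℓ ∈ {2, 3}`: the modular equations of the Hauptmoduln, algebraic consequences

For `ℓ = 3` (resp. `ℓ = 2`) the coordinate of the nodal model is the Hauptmodul `u = h₂ = 1/s₂`
of `Γ₀(2)` (resp. `u = h₃ = 1/s₃` of `Γ₀(3)`).  With `x = s_r(q)`, `y = s_r(q^ℓ)` the modular
equation is explicit (`Fermat.Agent.S30.Haupt.ModEq`):

* `RelTwo x y`   (`ℓ = 3`, `r = 2`) : `x⁴ + y⁴ = x y U₂(x, y)`, `U₂(0, 0) = 1`;
* `RelThree x y` (`ℓ = 2`, `r = 3`) : `x³ + y³ = x y U₃(x, y)`, `U₃(0, 0) = 1`.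

Consequences (pure algebra, this file):

* `RelTwo.inv`, `RelThree.inv` : the equation for `X = x⁻¹`, `Y = y⁻¹` (monic in both variables);
* `isIntegral_of_relInvTwo`, `isIntegral_of_relInvThree` : `Y` is integral over `O[X]`;
* `RelTwo.isIntegral_inv`, `RelThree.isIntegral_inv` : `y⁻¹` is integral over `O[x⁻¹]`;
* `RelTwo.symm`, `RelThree.symm`, and the cusp shapes `RelTwo.cusp`, `RelThree.cusp`.
-/

set_option autoImplicit false

open Polynomial

namespace Fermat.Agent.S34.HauptU.Rel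

/-- An element satisfying a monic relation with coefficients in `A` is integral over `A`. -/
theorem isIntegral_of_monic_rel {A B : Type*} [CommRing A] [CommRing B] [Algebra A B] (n : ℕ)
    (a : Fin n → A) (y : B) (h : y ^ n = ∑ i : Fin n, algebraMap A B (a i) * y ^ (i : ℕ)) :
    IsIntegral A y := by
  refine ⟨X ^ n - ∑ i : Fin n, C (a i) * X ^ (i : ℕ), monic_X_pow_sub (degree_sum_fin_lt a), ?_⟩
  rw [eval₂_sub, eval₂_pow, eval₂_X, eval₂_finsetSum, h, sub_eq_zero]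
  refine Finset.sum_congr rfl fun i _ => ?_
  rw [eval₂_mul, eval₂_C, eval₂_pow, eval₂_X]

section Defs

variable {L : Type*} [CommRing L]

/-- The cofactor `U₂` of the modular equation of level `(3, 2)`. -/
def cofTwo (x y : L) : L :=
  1 + 72 * (x + y) + 900 * (x ^ 2 + y ^ 2) - 28422 * (x * y) + 294912 * (x ^ 2 * y + x * y ^ 2)
    + 16777216 * (x ^ 2 * y ^ 2)

/-- The cofactor `U₃` of the modular equation of level `(2, 3)`. -/
def cofThree (x y : L) : L := 1 + 24 * (x + y) + 729 * (x * y)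

/-- The modular equation of `s₂(q)`, `s₂(q³)` (`s`-form). -/
def RelTwo (x y : L) : Prop :=
  y ^ 4 + x ^ 4 - x * y - 72 * (x * y ^ 2 + x ^ 2 * y) - 900 * (x * y ^ 3 + x ^ 3 * y)
    + 28422 * x ^ 2 * y ^ 2 - 294912 * (x ^ 2 * y ^ 3 + x ^ 3 * y ^ 2)
    - 16777216 * x ^ 3 * y ^ 3 = 0

/-- The modular equation of `s₃(q)`, `s₃(q²)` (`s`-form). -/
def RelThree (x y : L) : Prop :=
  x ^ 3 + y ^ 3 = x * y + 24 * (x * y ^ 2 + x ^ 2 * y) + 729 * x ^ 2 * y ^ 2

/-- The modular equation of `h₂(q)`, `h₂(q³)` (`u`-form). -/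
def RelInvTwo (X Y : L) : Prop :=
  X ^ 4 + Y ^ 4 - X ^ 3 * Y ^ 3 - 72 * (X ^ 3 * Y ^ 2 + X ^ 2 * Y ^ 3)
    - 900 * (X ^ 3 * Y + X * Y ^ 3) + 28422 * X ^ 2 * Y ^ 2 - 294912 * (X ^ 2 * Y + X * Y ^ 2)
    - 16777216 * X * Y = 0

/-- The modular equation of `h₃(q)`, `h₃(q²)` (`u`-form). -/
def RelInvThree (X Y : L) : Prop :=
  X ^ 3 + Y ^ 3 - X ^ 2 * Y ^ 2 - 24 * (X ^ 2 * Y + X * Y ^ 2) - 729 * X * Y = 0

theorem RelTwo.symm {x y : L} (h : RelTwo x y) : RelTwo y x := by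
  unfold RelTwo at h ⊢
  linear_combination h

theorem RelThree.symm {x y : L} (h : RelThree x y) : RelThree y x := by
  unfold RelThree at h ⊢
  linear_combination h

theorem RelInvTwo.symm {x y : L} (h : RelInvTwo x y) : RelInvTwo y x := by
  unfold RelInvTwo at h ⊢
  linear_combination h

theorem RelInvThree.symm {x y : L} (h : RelInvThree x y) : RelInvThree y x := by
  unfold RelInvThree at h ⊢
  linear_combination h

/-- Cusp shape, `ℓ = 3`: `x⁴ + y⁴ = x y U₂(x, y)`. -/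
theorem RelTwo.cusp {x y : L} (h : RelTwo x y) : x ^ 4 + y ^ 4 = x * y * cofTwo x y := by
  unfold RelTwo at h
  unfold cofTwo
  linear_combination h

/-- Cusp shape, `ℓ = 2`: `x³ + y³ = x y U₃(x, y)`. -/
theorem RelThree.cusp {x y : L} (h : RelThree x y) : x ^ 3 + y ^ 3 = x * y * cofThree x y := by
  unfold RelThree at h
  unfold cofThree
  linear_combination h

theorem relTwo_of_cusp {x y : L} (h : x ^ 4 + y ^ 4 = x * y * cofTwo x y) : RelTwo x y := by
  unfold cofTwo at h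
  unfold RelTwo
  linear_combination h

theorem relThree_of_cusp {x y : L} (h : x ^ 3 + y ^ 3 = x * y * cofThree x y) : RelThree x y := by
  unfold cofThree at h
  unfold RelThree
  linear_combination h

/-- The cofactor is `≡ 1` modulo `(x, y)`. -/
theorem cofTwo_sub_one (x y : L) :
    cofTwo x y - 1 = x * (72 + 900 * x - 28422 * y + 294912 * (x * y) + 16777216 * (x * y ^ 2))
      + y * (72 + 900 * y + 294912 * (x * y)) := by
  unfold cofTwo
  ring

theorem cofThree_sub_one (x y : L) : cofThree x y - 1 = x * (24 + 729 * y) + y * 24 := by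
  unfold cofThree
  ring

/-- Ring homomorphisms preserve the relations. -/
theorem RelTwo.map {L' : Type*} [CommRing L'] (f : L →+* L') {x y : L} (h : RelTwo x y) :
    RelTwo (f x) (f y) := by
  unfold RelTwo at h ⊢
  have := congrArg f h
  simpa only [map_sub, map_add, map_mul, map_pow, map_ofNat, map_zero] using this

theorem RelThree.map {L' : Type*} [CommRing L'] (f : L →+* L') {x y : L} (h : RelThree x y) :
    RelThree (f x) (f y) := by
  unfold RelThree at h ⊢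
  have := congrArg f h
  simpa only [map_sub, map_add, map_mul, map_pow, map_ofNat, map_zero] using this

theorem RelTwo.of_map {L' : Type*} [CommRing L'] (f : L →+* L') (hf : Function.Injective f)
    {x y : L} (h : RelTwo (f x) (f y)) : RelTwo x y := by
  unfold RelTwo at h ⊢
  apply hf
  simpa only [map_sub, map_add, map_mul, map_pow, map_ofNat, map_zero] using h

theorem RelThree.of_map {L' : Type*} [CommRing L'] (f : L →+* L') (hf : Function.Injective f)
    {x y : L} (h : RelThree (f x) (f y)) : RelThree x y := by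
  unfold RelThree at h ⊢
  apply hf
  simpa only [map_sub, map_add, map_mul, map_pow, map_ofNat, map_zero] using h

end Defs

section Integral

variable {O L : Type*} [CommRing O] [CommRing L] [Algebra O L]

/-- `ℓ = 3`: `Y` is integral over `O[X]` (the equation is monic of degree `4` in `Y`). -/
theorem isIntegral_of_relInvTwo {X Y : L} (h : RelInvTwo X Y) :
    IsIntegral (Algebra.adjoin O {X}) Y := by
  let x : Algebra.adjoin O {X} := ⟨X, Algebra.subset_adjoin rfl⟩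
  refine isIntegral_of_monic_rel 4
    ![-x ^ 4, 900 * x ^ 3 + 294912 * x ^ 2 + 16777216 * x,
      72 * x ^ 3 - 28422 * x ^ 2 + 294912 * x, x ^ 3 + 72 * x ^ 2 + 900 * x] Y ?_
  unfold RelInvTwo at h
  simp only [Fin.sum_univ_four, Matrix.cons_val_zero, Matrix.cons_val_one, Matrix.cons_val_two,
    Matrix.cons_val_three, Matrix.head_cons, Matrix.tail_cons, Fin.coe_ofNat_eq_mod, map_neg,
    map_add, map_sub, map_mul, map_pow, map_ofNat]
  have hx : algebraMap (Algebra.adjoin O {X}) L x = X := rfl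
  rw [hx]
  norm_num
  linear_combination h

/-- `ℓ = 2`: `Y` is integral over `O[X]` (the equation is monic of degree `3` in `Y`). -/
theorem isIntegral_of_relInvThree {X Y : L} (h : RelInvThree X Y) :
    IsIntegral (Algebra.adjoin O {X}) Y := by
  let x : Algebra.adjoin O {X} := ⟨X, Algebra.subset_adjoin rfl⟩
  refine isIntegral_of_monic_rel 3
    ![-x ^ 3, 24 * x ^ 2 + 729 * x, x ^ 2 + 24 * x] Y ?_
  unfold RelInvThree at h
  simp only [Fin.sum_univ_three, Matrix.cons_val_zero, Matrix.cons_val_one, Matrix.cons_val_two,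
    Matrix.head_cons, Matrix.tail_cons, Fin.val_zero, Fin.val_one, Fin.val_two, map_neg, map_add,
    map_mul, map_pow, map_ofNat]
  have hx : algebraMap (Algebra.adjoin O {X}) L x = X := rfl
  rw [hx]
  norm_num
  linear_combination h

/-- `ℓ = 3`, `s`-form: `y` is integral over `O[x]` (the equation is monic of degree `4` in `y`). -/
theorem isIntegral_of_relTwo {X Y : L} (h : RelTwo X Y) :
    IsIntegral (Algebra.adjoin O {X}) Y := by
  let x : Algebra.adjoin O {X} := ⟨X, Algebra.subset_adjoin rfl⟩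
  refine isIntegral_of_monic_rel 4
    ![-x ^ 4, 900 * x ^ 3 + 72 * x ^ 2 + x,
      294912 * x ^ 3 - 28422 * x ^ 2 + 72 * x, 16777216 * x ^ 3 + 294912 * x ^ 2 + 900 * x] Y ?_
  unfold RelTwo at h
  simp only [Fin.sum_univ_four, Matrix.cons_val_zero, Matrix.cons_val_one, Matrix.cons_val_two,
    Matrix.cons_val_three, Matrix.head_cons, Matrix.tail_cons, Fin.coe_ofNat_eq_mod, map_neg,
    map_add, map_sub, map_mul, map_pow, map_ofNat]
  have hx : algebraMap (Algebra.adjoin O {X}) L x = X := rfl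
  rw [hx]
  norm_num
  linear_combination h

/-- `ℓ = 2`, `s`-form: `y` is integral over `O[x]` (the equation is monic of degree `3` in `y`). -/
theorem isIntegral_of_relThree {X Y : L} (h : RelThree X Y) :
    IsIntegral (Algebra.adjoin O {X}) Y := by
  let x : Algebra.adjoin O {X} := ⟨X, Algebra.subset_adjoin rfl⟩
  refine isIntegral_of_monic_rel 3
    ![-x ^ 3, 24 * x ^ 2 + x, 729 * x ^ 2 + 24 * x] Y ?_
  unfold RelThree at h
  simp only [Fin.sum_univ_three, Matrix.cons_val_zero, Matrix.cons_val_one, Matrix.cons_val_two,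
    Matrix.head_cons, Matrix.tail_cons, Fin.val_zero, Fin.val_one, Fin.val_two, map_neg, map_add,
    map_mul, map_pow, map_ofNat]
  have hx : algebraMap (Algebra.adjoin O {X}) L x = X := rfl
  rw [hx]
  norm_num
  linear_combination h

end Integral

section Field

variable {L : Type*} [Field L]

/-- `s`-form ⟹ `u`-form (`ℓ = 3`). -/
theorem RelTwo.inv {x y : L} (h : RelTwo x y) (hx : x ≠ 0) (hy : y ≠ 0) :
    RelInvTwo x⁻¹ y⁻¹ := by
  unfold RelTwo at h
  unfold RelInvTwo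
  have key : x⁻¹ ^ 4 + y⁻¹ ^ 4 - x⁻¹ ^ 3 * y⁻¹ ^ 3 - 72 * (x⁻¹ ^ 3 * y⁻¹ ^ 2 + x⁻¹ ^ 2 * y⁻¹ ^ 3)
      - 900 * (x⁻¹ ^ 3 * y⁻¹ + x⁻¹ * y⁻¹ ^ 3) + 28422 * x⁻¹ ^ 2 * y⁻¹ ^ 2
      - 294912 * (x⁻¹ ^ 2 * y⁻¹ + x⁻¹ * y⁻¹ ^ 2) - 16777216 * x⁻¹ * y⁻¹
      = (y ^ 4 + x ^ 4 - x * y - 72 * (x * y ^ 2 + x ^ 2 * y) - 900 * (x * y ^ 3 + x ^ 3 * y)
        + 28422 * x ^ 2 * y ^ 2 - 294912 * (x ^ 2 * y ^ 3 + x ^ 3 * y ^ 2)
        - 16777216 * x ^ 3 * y ^ 3) / (x ^ 4 * y ^ 4) := by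
    field_simp
  rw [key, h, zero_div]

/-- `s`-form ⟹ `u`-form (`ℓ = 2`). -/
theorem RelThree.inv {x y : L} (h : RelThree x y) (hx : x ≠ 0) (hy : y ≠ 0) :
    RelInvThree x⁻¹ y⁻¹ := by
  unfold RelThree at h
  unfold RelInvThree
  have key : x⁻¹ ^ 3 + y⁻¹ ^ 3 - x⁻¹ ^ 2 * y⁻¹ ^ 2 - 24 * (x⁻¹ ^ 2 * y⁻¹ + x⁻¹ * y⁻¹ ^ 2)
      - 729 * x⁻¹ * y⁻¹
      = (x ^ 3 + y ^ 3 - (x * y + 24 * (x * y ^ 2 + x ^ 2 * y) + 729 * x ^ 2 * y ^ 2))
        / (x ^ 3 * y ^ 3) := by
    field_simp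
    ring
  rw [key, h, sub_self, zero_div]

variable {O : Type*} [CommRing O] [Algebra O L]

/-- `ℓ = 3`: `1/s₂(q³)` is integral over `O[1/s₂(q)]`. -/
theorem RelTwo.isIntegral_inv {x y : L} (h : RelTwo x y) (hx : x ≠ 0) (hy : y ≠ 0) :
    IsIntegral (Algebra.adjoin O {x⁻¹}) y⁻¹ :=
  isIntegral_of_relInvTwo (h.inv hx hy)

/-- `ℓ = 3`: `1/s₂(q)` is integral over `O[1/s₂(q³)]`. -/
theorem RelTwo.isIntegral_inv' {x y : L} (h : RelTwo x y) (hx : x ≠ 0) (hy : y ≠ 0) :
    IsIntegral (Algebra.adjoin O {y⁻¹}) x⁻¹ :=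
  isIntegral_of_relInvTwo (h.symm.inv hy hx)

/-- `ℓ = 2`: `1/s₃(q²)` is integral over `O[1/s₃(q)]`. -/
theorem RelThree.isIntegral_inv {x y : L} (h : RelThree x y) (hx : x ≠ 0) (hy : y ≠ 0) :
    IsIntegral (Algebra.adjoin O {x⁻¹}) y⁻¹ :=
  isIntegral_of_relInvThree (h.inv hx hy)

/-- `ℓ = 2`: `1/s₃(q)` is integral over `O[1/s₃(q²)]`. -/
theorem RelThree.isIntegral_inv' {x y : L} (h : RelThree x y) (hx : x ≠ 0) (hy : y ≠ 0) :
    IsIntegral (Algebra.adjoin O {y⁻¹}) x⁻¹ :=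
  isIntegral_of_relInvThree (h.symm.inv hy hx)

end Field

end Fermat.Agent.S34.HauptU.Rel
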