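import Mathlib
import Fermat.Agent.S30.Haupt.K1
import Fermat.Agent.S30.Model.MainInfA
import Fermat.Agent.S34.Modular.Kronecker
import Fermat.Agent.S34.Modular.SwapE
import Fermat.Agent.S30.Haupt.ModEq
import Fermat.Agent.S34.HauptU.Rel

/-!
# Program U, `ℓ ∈ {2, 3}`: the coordinate package for the Hauptmoduln `h_r = 1/s_r`

Level `N = M · ℓ`, `r ∈ {2, 3}`, `r ∣ M`; coordinate `u' = h_r ∈ LE M E` (chart zero) and
`u' = s_r ∈ LE M E` (chart infinity).  This file supplies, in the literal hypothesis shapes of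
`S34/TwoPrimesGauss.lean` (`hσu`, `hord`, `hcop`, `hfrob`, `hwu`, `hprime`):

* `intO O z` : the image over `O` of an integral Laurent series; `rho_intO`, `iota_intO`,
  `qExpand_rho_intO` (`hfrob`: integer coefficients are fixed by Frobenius);
* `order_rho_invO` (`= -1`), `order_rho_posO` (`= 1`) and the coprimality statements (`hord`,
  `hcop`);
* `coe_alpha_h2E`, `coe_alpha_s2E`, `coe_alpha_h3E`, `coe_alpha_s3E` (`hσu`);
* `relTwo_alpha_beta`, `relThree_alpha_beta` : the modular equation between `α s_r = s_r(q)` and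
  `β s_r = s_r(q^ℓ)` in `LE (M · ℓ) E`, from the identity in `ℚ((q))` (`Haupt/ModEq.lean`);
* `isIntegral_beta_*`, `isIntegral_alpha_*` (`hwu` on both charts, in both directions);
* `prime_piC_h2E`, `prime_piC_s2E`, `prime_piC_h3E`, `prime_piC_s3E` (`hprime` on both charts at
  level `M`, from the `u = j` inputs of the Model Theorem at level `M`).
-/

set_option autoImplicit false
set_option linter.unusedSectionVars false
set_option linter.style.haveILetI false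

open ModularCurve

noncomputable section

namespace Fermat.Agent.S34.HauptU.E

open Fermat.Agent.S30 Fermat.Agent.S30.Haupt Fermat.Agent.S18.K1Defs Fermat.Agent.S18.K1Main
open Fermat.Agent.S34.HauptU.Rel

local notation "Qb" => AlgebraicClosure ℚ

/-! ### Integral series -/

section IntSeries

/-- The image over `O` of an integral Laurent series. -/
def intO (O : Type*) [CommRing O] (z : LaurentSeries ℤ) : LaurentSeries O :=
  coeffMap (Int.castRingHom O) z

/-- The image over `O` of an integral power series. -/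
def posO (O : Type*) [CommRing O] (a : PowerSeries ℤ) : LaurentSeries O :=
  intO O (HahnSeries.ofPowerSeries ℤ ℤ a)

theorem invO_eq_intO (O : Type*) [CommRing O] (a : PowerSeries ℤ) :
    E2G1Aux.invO O a = intO O (E2G1Aux.invZ a) := rfl

variable {O : Type*} [CommRing O] [IsDomain O] [IsDiscreteValuationRing O]

theorem rho_intO (z : LaurentSeries ℤ) :
    GaussDVR.rho O (intO O z) = coeffMap (Int.castRingHom (IsLocalRing.ResidueField O)) z := by
  show coeffMap (IsLocalRing.residue O) (coeffMap (Int.castRingHom O) z) = _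
  rw [coeffMap_coeffMap]
  exact coeffMap_congr (RingHom.ext_int _ _) _

theorem iota_intO {E : Type*} [Field E] [Algebra O E] (z : LaurentSeries ℤ) :
    GaussDVR.iota O E (intO O z) = coeffMap (Int.castRingHom E) z := by
  show coeffMap (algebraMap O E) (coeffMap (Int.castRingHom O) z) = _
  rw [coeffMap_coeffMap]
  exact coeffMap_congr (RingHom.ext_int _ _) _

/-- `hfrob` for an integral series: `(ρ U)(q^ℓ) = (ρ U)^ℓ` in residue characteristic `ℓ`. -/
theorem qExpand_rho_intO (ℓ : ℕ) [NeZero ℓ] (hℓ : ℓ.Prime)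
    [CharP (IsLocalRing.ResidueField O) ℓ] (z : LaurentSeries ℤ) :
    qExpand (IsLocalRing.ResidueField O) ℓ (GaussDVR.rho O (intO O z)) =
      GaussDVR.rho O (intO O z) ^ ℓ := by
  haveI : Fact ℓ.Prime := ⟨hℓ⟩
  rw [rho_intO, ← Fermat.Agent.S34.Modular.Kronecker.expand_eq_qExpand ℓ hℓ.pos,
    ← Congr.expand_coeffMap_frobenius ℓ hℓ.pos, coeffMap_coeffMap]
  congr 1
  exact coeffMap_congr (RingHom.ext_int _ _) _

theorem coeff_invZ_of_lt (a : PowerSeries ℤ) {n : ℤ} (hn : n < -1) :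
    (E2G1Aux.invZ a).coeff n = 0 := by
  have h := HahnSeries.coeff_single_mul_add (r := (1 : ℤ))
    (x := HahnSeries.ofPowerSeries ℤ ℤ (PowerSeries.invOfUnit (E2G1Aux.shift a) 1))
    (a := n + 1) (b := (-1 : ℤ))
  rw [one_mul, show n + 1 + -1 = n by ring] at h
  rw [E2G1Aux.invZ, h, PowerSeries.coeff_coe, if_pos (by omega)]

/-- The reduction of `1/a`, `a = q + …`, has order exactly `-1`. -/
theorem order_rho_invO (a : PowerSeries ℤ) :
    (GaussDVR.rho O (E2G1Aux.invO O a)).order = -1 := by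
  rw [invO_eq_intO, rho_intO]
  generalize hx : coeffMap (Int.castRingHom (IsLocalRing.ResidueField O)) (E2G1Aux.invZ a) = x
  have hcoeff : ∀ n, x.coeff n =
      Int.castRingHom (IsLocalRing.ResidueField O) ((E2G1Aux.invZ a).coeff n) := by
    intro n
    rw [← hx, coeffMap_coeff]
  have h1 : x.coeff (-1 : ℤ) ≠ 0 := by
    rw [hcoeff, E2G1Aux.coeff_invZ_neg_one, map_one]
    exact one_ne_zero
  have hx0 : x ≠ 0 := fun h0 => h1 (by rw [h0, HahnSeries.coeff_zero])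
  refine le_antisymm (HahnSeries.order_le_of_coeff_ne_zero h1) ?_
  by_contra hlt
  have h2 : x.coeff x.order ≠ 0 := fun h => hx0 (HahnSeries.coeff_order_eq_zero.mp h)
  apply h2
  rw [hcoeff, coeff_invZ_of_lt a (by omega), map_zero]

/-- The reduction of `a = q + …` has order exactly `1`. -/
theorem order_rho_posO (a : PowerSeries ℤ) (h0 : PowerSeries.coeff 0 a = 0)
    (h1 : PowerSeries.coeff 1 a = 1) : (GaussDVR.rho O (posO O a)).order = 1 := by
  rw [posO, rho_intO]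
  generalize hx : coeffMap (Int.castRingHom (IsLocalRing.ResidueField O))
    (HahnSeries.ofPowerSeries ℤ ℤ a) = x
  have hcoeff : ∀ n : ℤ, x.coeff n = Int.castRingHom (IsLocalRing.ResidueField O)
      (if n < 0 then 0 else PowerSeries.coeff n.natAbs a) := by
    intro n
    rw [← hx, coeffMap_coeff, PowerSeries.coeff_coe]
  have hc1 : x.coeff (1 : ℤ) ≠ 0 := by
    rw [hcoeff, if_neg (by norm_num)]
    have : (1 : ℤ).natAbs = 1 := rfl
    rw [this, h1, map_one]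
    exact one_ne_zero
  have hx0 : x ≠ 0 := fun h => hc1 (by rw [h, HahnSeries.coeff_zero])
  refine le_antisymm (HahnSeries.order_le_of_coeff_ne_zero hc1) ?_
  by_contra hlt
  have h2 : x.coeff x.order ≠ 0 := fun h => hx0 (HahnSeries.coeff_order_eq_zero.mp h)
  apply h2
  rw [hcoeff]
  split_ifs with hneg
  · exact map_zero _
  · have h3 : x.order = 0 := by omega
    rw [h3]
    have : (0 : ℤ).natAbs = 0 := rfl
    rw [this, h0, map_zero]

theorem order_rho_invO_ne_zero (a : PowerSeries ℤ) :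
    (GaussDVR.rho O (E2G1Aux.invO O a)).order ≠ 0 := by
  rw [order_rho_invO]; norm_num

theorem isCoprime_order_rho_invO (a : PowerSeries ℤ) (ℓ : ℕ) :
    IsCoprime (GaussDVR.rho O (E2G1Aux.invO O a)).order (ℓ : ℤ) := by
  rw [order_rho_invO]
  exact isCoprime_one_left.neg_left

theorem order_rho_posO_ne_zero (a : PowerSeries ℤ) (h0 : PowerSeries.coeff 0 a = 0)
    (h1 : PowerSeries.coeff 1 a = 1) : (GaussDVR.rho O (posO O a)).order ≠ 0 := by
  rw [order_rho_posO a h0 h1]; norm_num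

theorem isCoprime_order_rho_posO (a : PowerSeries ℤ) (h0 : PowerSeries.coeff 0 a = 0)
    (h1 : PowerSeries.coeff 1 a = 1) (ℓ : ℕ) :
    IsCoprime (GaussDVR.rho O (posO O a)).order (ℓ : ℤ) := by
  rw [order_rho_posO a h0 h1]
  exact isCoprime_one_left

/-- `hfrob` for the chart of `1/a`. -/
theorem qExpand_rho_invO (ℓ : ℕ) [NeZero ℓ] (hℓ : ℓ.Prime)
    [CharP (IsLocalRing.ResidueField O) ℓ] (a : PowerSeries ℤ) :
    qExpand (IsLocalRing.ResidueField O) ℓ (GaussDVR.rho O (E2G1Aux.invO O a)) =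
      GaussDVR.rho O (E2G1Aux.invO O a) ^ ℓ :=
  qExpand_rho_intO ℓ hℓ _

/-- `hfrob` for the chart of `a`. -/
theorem qExpand_rho_posO (ℓ : ℕ) [NeZero ℓ] (hℓ : ℓ.Prime)
    [CharP (IsLocalRing.ResidueField O) ℓ] (a : PowerSeries ℤ) :
    qExpand (IsLocalRing.ResidueField O) ℓ (GaussDVR.rho O (posO O a)) =
      GaussDVR.rho O (posO O a) ^ ℓ :=
  qExpand_rho_intO ℓ hℓ _

/-- The image in `E((q))` of an integral power series is `ι (posO O a)`. -/
theorem coeffEmb_eq_iota_posO {E : Type*} [Field E] [Algebra O E] [Algebra ℚ E]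
    (a : PowerSeries ℤ) :
    coeffEmb E (HahnSeries.ofPowerSeries ℤ ℚ (a.map (Int.castRingHom ℚ))) =
      GaussDVR.iota O E (posO O a) := by
  rw [E2G1Aux.coeffEmb_ofPowerSeries, posO, iota_intO, Congr.coeffMap_ofPowerSeries]

end IntSeries

/-! ### The two levels -/

section Level

variable (M ℓ : ℕ) [NeZero M] [NeZero ℓ] (E : IntermediateField ℚ Qb)

local notation "α" => heckeAlphaBar E M ℓ
local notation "β" => heckeBetaBar E M ℓ

/-- The modular equation between `s₂(q)` and `s₂(q^ℓ)` in `LE (M · ℓ) E`. -/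
theorem relTwo_alpha_beta (hQ : RelTwo Two.s2 (qExpand ℚ ℓ Two.s2)) (h2M : 2 ∣ M) :
    RelTwo (α (HorizTwo.s2E M E h2M)) (β (HorizTwo.s2E M E h2M)) := by
  have h1 : ((α (HorizTwo.s2E M E h2M) : LE (M * ℓ) E) : LaurentSeries E) = coeffEmb E Two.s2 := by
    rw [coe_heckeAlphaBar, HorizTwo.coe_s2E]
  have h2 : ((β (HorizTwo.s2E M E h2M) : LE (M * ℓ) E) : LaurentSeries E) =
      coeffEmb E (qExpand ℚ ℓ Two.s2) := by
    rw [coe_heckeBetaBar, HorizTwo.coe_s2E, coeffEmb, ModularCurve.coeffMap_qExpand]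
  refine RelTwo.of_map (algebraMap (LE (M * ℓ) E) (LaurentSeries E))
    (FaithfulSMul.algebraMap_injective _ _) ?_
  show RelTwo ((α (HorizTwo.s2E M E h2M) : LE (M * ℓ) E) : LaurentSeries E)
    ((β (HorizTwo.s2E M E h2M) : LE (M * ℓ) E) : LaurentSeries E)
  rw [h1, h2]
  exact hQ.map (coeffEmb E)

/-- The modular equation between `s₃(q)` and `s₃(q^ℓ)` in `LE (M · ℓ) E`. -/
theorem relThree_alpha_beta (hQ : RelThree Three.s3 (qExpand ℚ ℓ Three.s3)) (h3M : 3 ∣ M) :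
    RelThree (α (HorizThree.s3E M E h3M)) (β (HorizThree.s3E M E h3M)) := by
  have h1 : ((α (HorizThree.s3E M E h3M) : LE (M * ℓ) E) : LaurentSeries E) =
      coeffEmb E Three.s3 := by
    rw [coe_heckeAlphaBar, HorizThree.coe_s3E]
  have h2 : ((β (HorizThree.s3E M E h3M) : LE (M * ℓ) E) : LaurentSeries E) =
      coeffEmb E (qExpand ℚ ℓ Three.s3) := by
    rw [coe_heckeBetaBar, HorizThree.coe_s3E, coeffEmb, ModularCurve.coeffMap_qExpand]
  refine RelThree.of_map (algebraMap (LE (M * ℓ) E) (LaurentSeries E))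
    (FaithfulSMul.algebraMap_injective _ _) ?_
  show RelThree ((α (HorizThree.s3E M E h3M) : LE (M * ℓ) E) : LaurentSeries E)
    ((β (HorizThree.s3E M E h3M) : LE (M * ℓ) E) : LaurentSeries E)
  rw [h1, h2]
  exact hQ.map (coeffEmb E)

theorem alpha_s2E_ne_zero (h2M : 2 ∣ M) : α (HorizTwo.s2E M E h2M) ≠ 0 :=
  (map_ne_zero _).mpr (HorizTwo.s2E_ne_zero M E h2M)

theorem beta_s2E_ne_zero (h2M : 2 ∣ M) : β (HorizTwo.s2E M E h2M) ≠ 0 :=
  (map_ne_zero _).mpr (HorizTwo.s2E_ne_zero M E h2M)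

theorem alpha_s3E_ne_zero (h3M : 3 ∣ M) : α (HorizThree.s3E M E h3M) ≠ 0 :=
  (map_ne_zero _).mpr (HorizThree.s3E_ne_zero M E h3M)

theorem beta_s3E_ne_zero (h3M : 3 ∣ M) : β (HorizThree.s3E M E h3M) ≠ 0 :=
  (map_ne_zero _).mpr (HorizThree.s3E_ne_zero M E h3M)

theorem alpha_h2E (h2M : 2 ∣ M) :
    α (HorizTwo.h2E M E h2M) = (α (HorizTwo.s2E M E h2M))⁻¹ := map_inv₀ _ _

theorem beta_h2E (h2M : 2 ∣ M) :
    β (HorizTwo.h2E M E h2M) = (β (HorizTwo.s2E M E h2M))⁻¹ := map_inv₀ _ _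

theorem alpha_h3E (h3M : 3 ∣ M) :
    α (HorizThree.h3E M E h3M) = (α (HorizThree.s3E M E h3M))⁻¹ := map_inv₀ _ _

theorem beta_h3E (h3M : 3 ∣ M) :
    β (HorizThree.h3E M E h3M) = (β (HorizThree.s3E M E h3M))⁻¹ := map_inv₀ _ _

/-! #### `hwu` : integrality of `W u = β u'` over `O[α u']`, on both charts, both directions -/

variable {O : Type*} [CommRing O] [Algebra O (LE (M * ℓ) E)]

/-- Chart zero, `r = 2`: `h₂(q^ℓ)` is integral over `O[h₂(q)]`. -/
theorem isIntegral_beta_h2E (hQ : RelTwo Two.s2 (qExpand ℚ ℓ Two.s2)) (h2M : 2 ∣ M) :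
    IsIntegral (Algebra.adjoin O {α (HorizTwo.h2E M E h2M)}) (β (HorizTwo.h2E M E h2M)) := by
  rw [alpha_h2E, beta_h2E]
  exact (relTwo_alpha_beta M ℓ E hQ h2M).isIntegral_inv (alpha_s2E_ne_zero M ℓ E h2M)
    (beta_s2E_ne_zero M ℓ E h2M)

/-- Chart zero, `r = 2`: `h₂(q)` is integral over `O[h₂(q^ℓ)]`. -/
theorem isIntegral_alpha_h2E (hQ : RelTwo Two.s2 (qExpand ℚ ℓ Two.s2)) (h2M : 2 ∣ M) :
    IsIntegral (Algebra.adjoin O {β (HorizTwo.h2E M E h2M)}) (α (HorizTwo.h2E M E h2M)) := by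
  rw [alpha_h2E, beta_h2E]
  exact (relTwo_alpha_beta M ℓ E hQ h2M).isIntegral_inv' (alpha_s2E_ne_zero M ℓ E h2M)
    (beta_s2E_ne_zero M ℓ E h2M)

/-- Chart infinity, `r = 2`: `s₂(q^ℓ)` is integral over `O[s₂(q)]`. -/
theorem isIntegral_beta_s2E (hQ : RelTwo Two.s2 (qExpand ℚ ℓ Two.s2)) (h2M : 2 ∣ M) :
    IsIntegral (Algebra.adjoin O {α (HorizTwo.s2E M E h2M)}) (β (HorizTwo.s2E M E h2M)) :=
  isIntegral_of_relTwo (relTwo_alpha_beta M ℓ E hQ h2M)

/-- Chart infinity, `r = 2`: `s₂(q)` is integral over `O[s₂(q^ℓ)]`. -/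
theorem isIntegral_alpha_s2E (hQ : RelTwo Two.s2 (qExpand ℚ ℓ Two.s2)) (h2M : 2 ∣ M) :
    IsIntegral (Algebra.adjoin O {β (HorizTwo.s2E M E h2M)}) (α (HorizTwo.s2E M E h2M)) :=
  isIntegral_of_relTwo (relTwo_alpha_beta M ℓ E hQ h2M).symm

/-- Chart zero, `r = 3`: `h₃(q^ℓ)` is integral over `O[h₃(q)]`. -/
theorem isIntegral_beta_h3E (hQ : RelThree Three.s3 (qExpand ℚ ℓ Three.s3)) (h3M : 3 ∣ M) :
    IsIntegral (Algebra.adjoin O {α (HorizThree.h3E M E h3M)}) (β (HorizThree.h3E M E h3M)) := by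
  rw [alpha_h3E, beta_h3E]
  exact (relThree_alpha_beta M ℓ E hQ h3M).isIntegral_inv (alpha_s3E_ne_zero M ℓ E h3M)
    (beta_s3E_ne_zero M ℓ E h3M)

/-- Chart zero, `r = 3`: `h₃(q)` is integral over `O[h₃(q^ℓ)]`. -/
theorem isIntegral_alpha_h3E (hQ : RelThree Three.s3 (qExpand ℚ ℓ Three.s3)) (h3M : 3 ∣ M) :
    IsIntegral (Algebra.adjoin O {β (HorizThree.h3E M E h3M)}) (α (HorizThree.h3E M E h3M)) := by
  rw [alpha_h3E, beta_h3E]
  exact (relThree_alpha_beta M ℓ E hQ h3M).isIntegral_inv' (alpha_s3E_ne_zero M ℓ E h3M)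
    (beta_s3E_ne_zero M ℓ E h3M)

/-- Chart infinity, `r = 3`: `s₃(q^ℓ)` is integral over `O[s₃(q)]`. -/
theorem isIntegral_beta_s3E (hQ : RelThree Three.s3 (qExpand ℚ ℓ Three.s3)) (h3M : 3 ∣ M) :
    IsIntegral (Algebra.adjoin O {α (HorizThree.s3E M E h3M)}) (β (HorizThree.s3E M E h3M)) :=
  isIntegral_of_relThree (relThree_alpha_beta M ℓ E hQ h3M)

/-- Chart infinity, `r = 3`: `s₃(q)` is integral over `O[s₃(q^ℓ)]`. -/
theorem isIntegral_alpha_s3E (hQ : RelThree Three.s3 (qExpand ℚ ℓ Three.s3)) (h3M : 3 ∣ M) :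
    IsIntegral (Algebra.adjoin O {β (HorizThree.s3E M E h3M)}) (α (HorizThree.s3E M E h3M)) :=
  isIntegral_of_relThree (relThree_alpha_beta M ℓ E hQ h3M).symm

end Level

/-! ### `hσu` : the integral `q`-expansions -/

section Sigma

variable (M : ℕ) [NeZero M] (E : IntermediateField ℚ Qb)
variable {O : Type} [CommRing O] [IsDomain O] [IsDiscreteValuationRing O]
  [Algebra O E] [IsFractionRing O E]

theorem coe_h2E_eq_iota (h2M : 2 ∣ M) :
    ((HorizTwo.h2E M E h2M : LE M E) : LaurentSeries E)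
      = GaussDVR.iota O E (E2G1Aux.invO O Two.s2Z) :=
  K1.coe_h2E_eq_iota M E h2M

theorem coe_h3E_eq_iota (h3M : 3 ∣ M) :
    ((HorizThree.h3E M E h3M : LE M E) : LaurentSeries E)
      = GaussDVR.iota O E (E2G1Aux.invO O Three.s3Z) :=
  K1.coe_h3E_eq_iota M E h3M

theorem coe_s2E_eq_iota (h2M : 2 ∣ M) :
    ((HorizTwo.s2E M E h2M : LE M E) : LaurentSeries E)
      = GaussDVR.iota O E (posO O Two.s2Z) := by
  rw [HorizTwo.coe_s2E, Two.s2_eq_emb]
  exact coeffEmb_eq_iota_posO Two.s2Z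

theorem coe_s3E_eq_iota (h3M : 3 ∣ M) :
    ((HorizThree.s3E M E h3M : LE M E) : LaurentSeries E)
      = GaussDVR.iota O E (posO O Three.s3Z) := by
  rw [HorizThree.coe_s3E]
  exact coeffEmb_eq_iota_posO Three.s3Z

variable (ℓ : ℕ) [NeZero ℓ]

theorem coe_alpha_h2E (h2M : 2 ∣ M) :
    ((heckeAlphaBar E M ℓ (HorizTwo.h2E M E h2M) : LE (M * ℓ) E) : LaurentSeries E)
      = GaussDVR.iota O E (E2G1Aux.invO O Two.s2Z) := by
  rw [coe_heckeAlphaBar]
  exact coe_h2E_eq_iota M E h2M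

theorem coe_alpha_h3E (h3M : 3 ∣ M) :
    ((heckeAlphaBar E M ℓ (HorizThree.h3E M E h3M) : LE (M * ℓ) E) : LaurentSeries E)
      = GaussDVR.iota O E (E2G1Aux.invO O Three.s3Z) := by
  rw [coe_heckeAlphaBar]
  exact coe_h3E_eq_iota M E h3M

theorem coe_alpha_s2E (h2M : 2 ∣ M) :
    ((heckeAlphaBar E M ℓ (HorizTwo.s2E M E h2M) : LE (M * ℓ) E) : LaurentSeries E)
      = GaussDVR.iota O E (posO O Two.s2Z) := by
  rw [coe_heckeAlphaBar]
  exact coe_s2E_eq_iota M E h2M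

theorem coe_alpha_s3E (h3M : 3 ∣ M) :
    ((heckeAlphaBar E M ℓ (HorizThree.s3E M E h3M) : LE (M * ℓ) E) : LaurentSeries E)
      = GaussDVR.iota O E (posO O Three.s3Z) := by
  rw [coe_heckeAlphaBar]
  exact coe_s3E_eq_iota M E h3M

end Sigma

/-! ### The explicit levels `(r, ℓ) = (2, 3)` and `(3, 2)`; the literal coordinate `u'⁻¹` -/

section Explicit

variable (M : ℕ) [NeZero M] (E : IntermediateField ℚ Qb)

/-- The modular equation of level `3` for `s₂` (`Haupt/ModEq.lean`). -/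
theorem relTwo_s2 : RelTwo Two.s2 (qExpand ℚ 3 Two.s2) := ModEq.modEq_two

/-- The modular equation of level `2` for `s₃` (`Haupt/ModEq.lean`). -/
theorem relThree_s3 : RelThree Three.s3 (qExpand ℚ 2 Three.s3) := ModEq.modEq_three

/-- `(h₂)⁻¹ = s₂` in `LE M E` (not definitional). -/
theorem h2E_inv (h2M : 2 ∣ M) : (HorizTwo.h2E M E h2M)⁻¹ = HorizTwo.s2E M E h2M := inv_inv _

/-- `(h₃)⁻¹ = s₃` in `LE M E` (not definitional). -/
theorem h3E_inv (h3M : 3 ∣ M) : (HorizThree.h3E M E h3M)⁻¹ = HorizThree.s3E M E h3M := inv_inv _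

/-- `α (u'⁻¹) = (α u')⁻¹` holds by `rfl`: the chart of `α (h₂⁻¹)` IS the chart at infinity of
`α h₂`. -/
theorem alpha_inv_rfl (ℓ : ℕ) [NeZero ℓ] (x : LE M E) :
    heckeAlphaBar E M ℓ x⁻¹ = (heckeAlphaBar E M ℓ x)⁻¹ := rfl

section Two

variable (h2M : 2 ∣ M)

local notation "α" => heckeAlphaBar E M 3
local notation "β" => heckeBetaBar E M 3

theorem relTwo_alpha_beta_three :
    RelTwo (α (HorizTwo.s2E M E h2M)) (β (HorizTwo.s2E M E h2M)) :=
  relTwo_alpha_beta M 3 E relTwo_s2 h2M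

/-- Cusp shape at level `M · 3`: `x⁴ + y⁴ = x y U₂(x, y)` for `x = s₂(q)`, `y = s₂(q³)`. -/
theorem cusp_two :
    α (HorizTwo.s2E M E h2M) ^ 4 + β (HorizTwo.s2E M E h2M) ^ 4 =
      α (HorizTwo.s2E M E h2M) * β (HorizTwo.s2E M E h2M) *
        cofTwo (α (HorizTwo.s2E M E h2M)) (β (HorizTwo.s2E M E h2M)) :=
  (relTwo_alpha_beta_three M E h2M).cusp

variable {O : Type*} [CommRing O] [Algebra O (LE (M * 3) E)]

/-- `hwu`, chart zero, `(r, ℓ) = (2, 3)`. -/
theorem hwu_h2E :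
    IsIntegral (Algebra.adjoin O {α (HorizTwo.h2E M E h2M)}) (β (HorizTwo.h2E M E h2M)) :=
  isIntegral_beta_h2E M 3 E relTwo_s2 h2M

theorem hwu_h2E' :
    IsIntegral (Algebra.adjoin O {β (HorizTwo.h2E M E h2M)}) (α (HorizTwo.h2E M E h2M)) :=
  isIntegral_alpha_h2E M 3 E relTwo_s2 h2M

/-- `hwu`, chart infinity, `(r, ℓ) = (2, 3)`, coordinate `s₂`. -/
theorem hwu_s2E :
    IsIntegral (Algebra.adjoin O {α (HorizTwo.s2E M E h2M)}) (β (HorizTwo.s2E M E h2M)) :=
  isIntegral_beta_s2E M 3 E relTwo_s2 h2M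

theorem hwu_s2E' :
    IsIntegral (Algebra.adjoin O {β (HorizTwo.s2E M E h2M)}) (α (HorizTwo.s2E M E h2M)) :=
  isIntegral_alpha_s2E M 3 E relTwo_s2 h2M

/-- `hwu`, chart infinity, `(r, ℓ) = (2, 3)`, literal coordinate `h₂⁻¹`. -/
theorem hwu_h2E_inv :
    IsIntegral (Algebra.adjoin O {α (HorizTwo.h2E M E h2M)⁻¹}) (β (HorizTwo.h2E M E h2M)⁻¹) := by
  rw [h2E_inv]
  exact hwu_s2E M E h2M

theorem hwu_h2E_inv' :
    IsIntegral (Algebra.adjoin O {β (HorizTwo.h2E M E h2M)⁻¹}) (α (HorizTwo.h2E M E h2M)⁻¹) := by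
  rw [h2E_inv]
  exact hwu_s2E' M E h2M

end Two

section Three

variable (h3M : 3 ∣ M)

local notation "α" => heckeAlphaBar E M 2
local notation "β" => heckeBetaBar E M 2

theorem relThree_alpha_beta_two :
    RelThree (α (HorizThree.s3E M E h3M)) (β (HorizThree.s3E M E h3M)) :=
  relThree_alpha_beta M 2 E relThree_s3 h3M

/-- Cusp shape at level `M · 2`: `x³ + y³ = x y U₃(x, y)` for `x = s₃(q)`, `y = s₃(q²)`. -/
theorem cusp_three :
    α (HorizThree.s3E M E h3M) ^ 3 + β (HorizThree.s3E M E h3M) ^ 3 =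
      α (HorizThree.s3E M E h3M) * β (HorizThree.s3E M E h3M) *
        cofThree (α (HorizThree.s3E M E h3M)) (β (HorizThree.s3E M E h3M)) :=
  (relThree_alpha_beta_two M E h3M).cusp

variable {O : Type*} [CommRing O] [Algebra O (LE (M * 2) E)]

/-- `hwu`, chart zero, `(r, ℓ) = (3, 2)`. -/
theorem hwu_h3E :
    IsIntegral (Algebra.adjoin O {α (HorizThree.h3E M E h3M)}) (β (HorizThree.h3E M E h3M)) :=
  isIntegral_beta_h3E M 2 E relThree_s3 h3M

theorem hwu_h3E' :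
    IsIntegral (Algebra.adjoin O {β (HorizThree.h3E M E h3M)}) (α (HorizThree.h3E M E h3M)) :=
  isIntegral_alpha_h3E M 2 E relThree_s3 h3M

/-- `hwu`, chart infinity, `(r, ℓ) = (3, 2)`, coordinate `s₃`. -/
theorem hwu_s3E :
    IsIntegral (Algebra.adjoin O {α (HorizThree.s3E M E h3M)}) (β (HorizThree.s3E M E h3M)) :=
  isIntegral_beta_s3E M 2 E relThree_s3 h3M

theorem hwu_s3E' :
    IsIntegral (Algebra.adjoin O {β (HorizThree.s3E M E h3M)}) (α (HorizThree.s3E M E h3M)) :=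
  isIntegral_alpha_s3E M 2 E relThree_s3 h3M

/-- `hwu`, chart infinity, `(r, ℓ) = (3, 2)`, literal coordinate `h₃⁻¹`. -/
theorem hwu_h3E_inv :
    IsIntegral (Algebra.adjoin O {α (HorizThree.h3E M E h3M)⁻¹})
      (β (HorizThree.h3E M E h3M)⁻¹) := by
  rw [h3E_inv]
  exact hwu_s3E M E h3M

theorem hwu_h3E_inv' :
    IsIntegral (Algebra.adjoin O {β (HorizThree.h3E M E h3M)⁻¹})
      (α (HorizThree.h3E M E h3M)⁻¹) := by
  rw [h3E_inv]
  exact hwu_s3E' M E h3M

end Three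

/-! #### `hσu` for the literal coordinate `u'⁻¹` -/

variable {O : Type} [CommRing O] [IsDomain O] [IsDiscreteValuationRing O]
  [Algebra O E] [IsFractionRing O E] (ℓ : ℕ) [NeZero ℓ]

theorem coe_alpha_h2E_inv (h2M : 2 ∣ M) :
    ((heckeAlphaBar E M ℓ (HorizTwo.h2E M E h2M)⁻¹ : LE (M * ℓ) E) : LaurentSeries E)
      = GaussDVR.iota O E (posO O Two.s2Z) := by
  rw [h2E_inv]
  exact coe_alpha_s2E M E ℓ h2M

theorem coe_alpha_h3E_inv (h3M : 3 ∣ M) :
    ((heckeAlphaBar E M ℓ (HorizThree.h3E M E h3M)⁻¹ : LE (M * ℓ) E) : LaurentSeries E)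
      = GaussDVR.iota O E (posO O Three.s3Z) := by
  rw [h3E_inv]
  exact coe_alpha_s3E M E ℓ h3M

end Explicit

end Fermat.Agent.S34.HauptU.E
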