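import Mathlib
import Fermat.Agent.S34.HauptU.E
import Fermat.Agent.S34.TwoPrimesRank
import Fermat.Agent.S34.ToricSwap
import Fermat.Agent.S34.InertiaAut

/-!
# Program U: the coordinate-free plug-in of `TwoPrimesGauss` for the modular function fields

`L' = LE M E`, `L = LE (M ℓ) E`, `α = TwoPrimesRank.alphaHom M ℓ E` (`= heckeAlphaBar`),
`σ = sigmaHom N E` (the inclusion into `E((q))`), `w = wHom M ℓ E hℓ hℓM` (the `E`-level
Atkin–Lehner swap attached to `ToricSwap.wAL`).  The hypotheses of `TwoPrimesGauss.package` that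
do not depend on the coordinate:

* `hαO` = `TwoPrimesRank.alphaHom_algebraMap` (helper50);
* `hσO` = `sigmaHom_algebraMap`, `hσfrac` = `sigmaHom_mem_fracField`;
* `hwO` = `wHom_algebraMap`, `hwα` = `sigmaHom_wHom_alpha`, `hww` = `wHom_wHom`;
* `upE_wE` : compatibility of `w_E` with `ToricSwap.wAL` under extension of constants.

Coordinate-generic helpers (any level-`M` element with integral `q`-expansion, rational
coefficients): membership in the Gauss ring of `α u'`, `β u'`; Galois invariance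
(`galE_eq_self_of_coe`, instances for `s_r`, `h_r`, `α s_r`, `α h_r`).
-/

set_option autoImplicit false
set_option linter.unusedSectionVars false
set_option linter.style.haveILetI false
set_option synthInstance.maxHeartbeats 400000

open ModularCurve

noncomputable section

namespace Fermat.Agent.S34.HauptU.Plug

open Fermat.Agent.S30 Fermat.Agent.S30.Haupt Fermat.Agent.S18.K1Defs
open Fermat.Agent.S34.TwoPrimesRank Fermat.Agent.S34.Modular.SwapE Fermat.Agent.S34.TrivModE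

local notation "Qb" => AlgebraicClosure ℚ
local notation "Gq" => (AlgebraicClosure ℚ ≃ₐ[ℚ] AlgebraicClosure ℚ)

/-! ### `σ` : the `q`-expansion embedding -/

section Sigma

variable (N : ℕ) (E : IntermediateField ℚ Qb)

/-- The `q`-expansion embedding `LE N E → E((q))` as a ring homomorphism. -/
abbrev sigmaHom : LE N E →+* LaurentSeries E := algebraMap (LE N E) (LaurentSeries E)

theorem sigmaHom_apply (x : LE N E) : sigmaHom N E x = (x : LaurentSeries E) := rfl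

theorem sigmaHom_injective : Function.Injective (sigmaHom N E) := Subtype.val_injective

/-- `hσO`. -/
theorem sigmaHom_algebraMap {O : Type*} [CommRing O] [Algebra O E] [Algebra O (LE N E)]
    [IsScalarTower O E (LE N E)] (r : O) :
    sigmaHom N E (algebraMap O (LE N E) r) = HahnSeries.C (algebraMap O E r) := by
  rw [IsScalarTower.algebraMap_apply O E (LE N E), Fermat.Agent.S18.Wiring.C_eq_algebraMap]
  rfl

/-- `hσfrac` for `O = A ∩ E`. -/
theorem sigmaHom_mem_fracField [NeZero N] (A : ValuationSubring Qb)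
    [IsDiscreteValuationRing (OE A E)] (x : LE N E) :
    sigmaHom N E x ∈ GaussDVR.fracField (OE A E) E :=
  mem_fracField_LE A E N x

end Sigma

/-! ### `w` : the `E`-level Atkin–Lehner swap -/

section Swap

variable (M ℓ : ℕ) [NeZero M] [NeZero ℓ] (E : IntermediateField ℚ Qb)
  (hℓ : ℓ.Prime) (hℓM : ¬ ℓ ∣ M)

/-- The `E`-level Atkin–Lehner swap attached to `ToricSwap.wAL`. -/
def wE : LE (M * ℓ) E ≃ₐ[E] LE (M * ℓ) E :=
  swapE M ℓ E (ToricSwap.wAL M ℓ hℓ hℓM) hℓ (fun f => ToricSwap.wAL_alpha hℓ hℓM f)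
    (fun f => ToricSwap.wAL_beta hℓ hℓM f) (fun z => ToricSwap.wAL_wAL hℓ hℓM z)

theorem wE_alpha (f : LE M E) :
    wE M ℓ E hℓ hℓM (heckeAlphaBar E M ℓ f) = heckeBetaBar E M ℓ f :=
  swapE_alpha M ℓ E _ hℓ _ _ _ f

theorem wE_beta (f : LE M E) :
    wE M ℓ E hℓ hℓM (heckeBetaBar E M ℓ f) = heckeAlphaBar E M ℓ f :=
  swapE_beta M ℓ E _ hℓ _ _ _ f

theorem wE_wE (z : LE (M * ℓ) E) : wE M ℓ E hℓ hℓM (wE M ℓ E hℓ hℓM z) = z :=
  swapE_swapE M ℓ E _ hℓ _ _ _ z

/-- Compatibility with `ToricSwap.wAL` under extension of constants. -/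
theorem upE_wE (z : LE (M * ℓ) E) :
    upE (M * ℓ) E (wE M ℓ E hℓ hℓM z) = ToricSwap.wAL M ℓ hℓ hℓM (upE (M * ℓ) E z) :=
  upE_swapE M ℓ E _ hℓ _ _ _ z

/-- `w_E` commutes with the coefficientwise Galois action. -/
theorem wE_arithmeticRingAut (σ : E ≃ₐ[ℚ] E) (z : LE (M * ℓ) E) :
    wE M ℓ E hℓ hℓM (arithmeticRingAut (modularFunctionFieldFull (M * ℓ)) σ z)
      = arithmeticRingAut (modularFunctionFieldFull (M * ℓ)) σ (wE M ℓ E hℓ hℓM z) :=
  swap_arithmeticRingAut M ℓ hℓ (wE M ℓ E hℓ hℓM) (wE_alpha M ℓ E hℓ hℓM)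
    (wE_beta M ℓ E hℓ hℓM) σ z

/-- The swap as a ring equivalence: the `w` of `TwoPrimesGauss`. -/
abbrev wHom : LE (M * ℓ) E ≃+* LE (M * ℓ) E := (wE M ℓ E hℓ hℓM).toRingEquiv

theorem wHom_apply (z : LE (M * ℓ) E) : wHom M ℓ E hℓ hℓM z = wE M ℓ E hℓ hℓM z := rfl

/-- `hwO`. -/
theorem wHom_algebraMap {O : Type*} [CommRing O] [Algebra O E] [Algebra O (LE (M * ℓ) E)]
    [IsScalarTower O E (LE (M * ℓ) E)] (r : O) :
    wHom M ℓ E hℓ hℓM (algebraMap O (LE (M * ℓ) E) r) = algebraMap O (LE (M * ℓ) E) r := by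
  rw [IsScalarTower.algebraMap_apply O E (LE (M * ℓ) E)]
  exact (wE M ℓ E hℓ hℓM).commutes _

/-- `w (α x) = β x`. -/
theorem wHom_alpha (x : LE M E) :
    wHom M ℓ E hℓ hℓM (alphaHom M ℓ E x) = heckeBetaBar E M ℓ x :=
  wE_alpha M ℓ E hℓ hℓM x

/-- `hwα` : `σ (w (α x)) = (σ (α x))(q^ℓ)`. -/
theorem sigmaHom_wHom_alpha (x : LE M E) :
    sigmaHom (M * ℓ) E (wHom M ℓ E hℓ hℓM (alphaHom M ℓ E x))
      = qExpand E ℓ (sigmaHom (M * ℓ) E (alphaHom M ℓ E x)) := by
  rw [wHom_alpha, sigmaHom_apply, sigmaHom_apply, coe_heckeBetaBar]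
  show qExpand E ℓ (x : LaurentSeries E)
    = qExpand E ℓ ((heckeAlphaBar E M ℓ x : LE (M * ℓ) E) : LaurentSeries E)
  rw [coe_heckeAlphaBar]

/-- `hww`. -/
theorem wHom_wHom (z : LE (M * ℓ) E) : wHom M ℓ E hℓ hℓM (wHom M ℓ E hℓ hℓM z) = z :=
  wE_wE M ℓ E hℓ hℓM z

end Swap

/-! ### Gauss ring membership of `α u'` and `β u'` -/

section GaussMem

variable (M ℓ : ℕ) [NeZero M] [NeZero ℓ] (E : IntermediateField ℚ Qb)
  {O : Type*} [CommRing O] [IsDomain O] [IsDiscreteValuationRing O] [Algebra O E]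
  [FaithfulSMul O E]

theorem coe_alpha_eq_iota (u' : LE M E) (U : LaurentSeries O)
    (h : (u' : LaurentSeries E) = GaussDVR.iota O E U) :
    ((heckeAlphaBar E M ℓ u' : LE (M * ℓ) E) : LaurentSeries E) = GaussDVR.iota O E U := by
  rw [coe_heckeAlphaBar, h]

theorem coe_beta_eq_iota (u' : LE M E) (U : LaurentSeries O)
    (h : (u' : LaurentSeries E) = GaussDVR.iota O E U) :
    ((heckeBetaBar E M ℓ u' : LE (M * ℓ) E) : LaurentSeries E)
      = GaussDVR.iota O E (qExpand O ℓ U) := by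
  rw [coe_heckeBetaBar, h]
  exact (ModularCurve.coeffMap_qExpand _ _ _).symm

theorem alpha_mem_V (u' : LE M E) (U : LaurentSeries O)
    (h : (u' : LaurentSeries E) = GaussDVR.iota O E U) :
    ((heckeAlphaBar E M ℓ u' : LE (M * ℓ) E) : LaurentSeries E) ∈ GaussDVR.V O E := by
  rw [coe_alpha_eq_iota M ℓ E u' U h]
  exact GaussDVR.mem_of_int O E U

theorem beta_mem_V (u' : LE M E) (U : LaurentSeries O)
    (h : (u' : LaurentSeries E) = GaussDVR.iota O E U) :
    ((heckeBetaBar E M ℓ u' : LE (M * ℓ) E) : LaurentSeries E) ∈ GaussDVR.V O E := by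
  rw [coe_beta_eq_iota M ℓ E u' U h]
  exact GaussDVR.mem_of_int O E _

end GaussMem

/-! ### Galois invariance of elements with rational `q`-expansion -/

section Galois

variable (N : ℕ) (E : IntermediateField ℚ Qb)

/-- The coefficientwise Galois action fixes an element whose `q`-expansion is rational. -/
theorem arithmeticRingAut_eq_self_of_coe (σ : E ≃ₐ[ℚ] E) (x : LE N E) (z : LaurentSeries ℚ)
    (hx : (x : LaurentSeries E) = coeffEmb E z) :
    arithmeticRingAut (modularFunctionFieldFull N) σ x = x := by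
  apply Subtype.ext
  rw [coe_arithmeticRingAut_apply, hx, coeffMap_coeffEmb]

/-- ... and its inverse. -/
theorem arithmeticRingAut_inv_eq_self_of_coe (σ : E ≃ₐ[ℚ] E) (x : LE N E) (z : LaurentSeries ℚ)
    (hx : (x : LaurentSeries E) = coeffEmb E z) :
    arithmeticRingAut (modularFunctionFieldFull N) σ x⁻¹ = x⁻¹ := by
  rw [map_inv₀, arithmeticRingAut_eq_self_of_coe N E σ x z hx]

variable [Normal ℚ E]

theorem galE_eq_self_of_coe (τ : Gq) (x : LE N E) (z : LaurentSeries ℚ)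
    (hx : (x : LaurentSeries E) = coeffEmb E z) : galE E N τ x = x :=
  arithmeticRingAut_eq_self_of_coe N E _ x z hx

theorem galE_inv_eq_self_of_coe (τ : Gq) (x : LE N E) (z : LaurentSeries ℚ)
    (hx : (x : LaurentSeries E) = coeffEmb E z) : galE E N τ x⁻¹ = x⁻¹ :=
  arithmeticRingAut_inv_eq_self_of_coe N E _ x z hx

end Galois

section GaloisHaupt

variable (M : ℕ) [NeZero M] (E : IntermediateField ℚ Qb) [Normal ℚ E] (τ : Gq)

theorem galE_s2E (h2M : 2 ∣ M) : galE E M τ (HorizTwo.s2E M E h2M) = HorizTwo.s2E M E h2M :=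
  galE_eq_self_of_coe M E τ _ Two.s2 (HorizTwo.coe_s2E M E h2M)

theorem galE_h2E (h2M : 2 ∣ M) : galE E M τ (HorizTwo.h2E M E h2M) = HorizTwo.h2E M E h2M :=
  galE_inv_eq_self_of_coe M E τ _ Two.s2 (HorizTwo.coe_s2E M E h2M)

theorem galE_s3E (h3M : 3 ∣ M) : galE E M τ (HorizThree.s3E M E h3M) = HorizThree.s3E M E h3M :=
  galE_eq_self_of_coe M E τ _ Three.s3 (HorizThree.coe_s3E M E h3M)

theorem galE_h3E (h3M : 3 ∣ M) : galE E M τ (HorizThree.h3E M E h3M) = HorizThree.h3E M E h3M :=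
  galE_inv_eq_self_of_coe M E τ _ Three.s3 (HorizThree.coe_s3E M E h3M)

variable (ℓ : ℕ) [NeZero ℓ]

/-- The coefficientwise Galois action commutes with `α`. -/
theorem galE_alpha (x : LE M E) :
    galE E (M * ℓ) τ (heckeAlphaBar E M ℓ x) = heckeAlphaBar E M ℓ (galE E M τ x) :=
  arithmeticRingAut_alpha M ℓ _ x

theorem galE_alpha_h2E (h2M : 2 ∣ M) :
    galE E (M * ℓ) τ (heckeAlphaBar E M ℓ (HorizTwo.h2E M E h2M))
      = heckeAlphaBar E M ℓ (HorizTwo.h2E M E h2M) := by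
  rw [galE_alpha, galE_h2E]

theorem galE_alpha_h3E (h3M : 3 ∣ M) :
    galE E (M * ℓ) τ (heckeAlphaBar E M ℓ (HorizThree.h3E M E h3M))
      = heckeAlphaBar E M ℓ (HorizThree.h3E M E h3M) := by
  rw [galE_alpha, galE_h3E]

end GaloisHaupt

/-! ### Literal `hv` and `hwu` for the Hauptmodul coordinates (`α = alphaHom`, `w = wHom`) -/

section Literal

variable (M : ℕ) [NeZero M] (E : IntermediateField ℚ Qb)

/-- `hv` : `α s₂ = (α h₂)⁻¹`. -/
theorem alpha_s2E_eq_inv (ℓ : ℕ) [NeZero ℓ] (h2M : 2 ∣ M) :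
    alphaHom M ℓ E (HorizTwo.s2E M E h2M) = (alphaHom M ℓ E (HorizTwo.h2E M E h2M))⁻¹ := by
  rw [← map_inv₀, Fermat.Agent.S34.HauptU.E.h2E_inv]

/-- `hv` : `α s₃ = (α h₃)⁻¹`. -/
theorem alpha_s3E_eq_inv (ℓ : ℕ) [NeZero ℓ] (h3M : 3 ∣ M) :
    alphaHom M ℓ E (HorizThree.s3E M E h3M) = (alphaHom M ℓ E (HorizThree.h3E M E h3M))⁻¹ := by
  rw [← map_inv₀, Fermat.Agent.S34.HauptU.E.h3E_inv]

section Two

variable (h3 : Nat.Prime 3) (h3M : ¬ 3 ∣ M) (h2M : 2 ∣ M)
  {O : Type*} [CommRing O] [Algebra O (LE (M * 3) E)]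

/-- `hwu` at `u' = h₂` (`ℓ = 3`), literal shape of `TwoPrimesGauss`. -/
theorem hwu_h2E :
    IsIntegral (Algebra.adjoin O {alphaHom M 3 E (HorizTwo.h2E M E h2M)})
      (wHom M 3 E h3 h3M (alphaHom M 3 E (HorizTwo.h2E M E h2M))) := by
  rw [wHom_alpha]
  exact Fermat.Agent.S34.HauptU.E.hwu_h2E M E h2M

/-- `hwu` at `u' = s₂` (`ℓ = 3`), literal shape of `TwoPrimesGauss`. -/
theorem hwu_s2E :
    IsIntegral (Algebra.adjoin O {alphaHom M 3 E (HorizTwo.s2E M E h2M)})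
      (wHom M 3 E h3 h3M (alphaHom M 3 E (HorizTwo.s2E M E h2M))) := by
  rw [wHom_alpha]
  exact Fermat.Agent.S34.HauptU.E.hwu_s2E M E h2M

end Two

section Three

variable (h2 : Nat.Prime 2) (h2M : ¬ 2 ∣ M) (h3M : 3 ∣ M)
  {O : Type*} [CommRing O] [Algebra O (LE (M * 2) E)]

/-- `hwu` at `u' = h₃` (`ℓ = 2`), literal shape of `TwoPrimesGauss`. -/
theorem hwu_h3E :
    IsIntegral (Algebra.adjoin O {alphaHom M 2 E (HorizThree.h3E M E h3M)})
      (wHom M 2 E h2 h2M (alphaHom M 2 E (HorizThree.h3E M E h3M))) := by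
  rw [wHom_alpha]
  exact Fermat.Agent.S34.HauptU.E.hwu_h3E M E h3M

/-- `hwu` at `u' = s₃` (`ℓ = 2`), literal shape of `TwoPrimesGauss`. -/
theorem hwu_s3E :
    IsIntegral (Algebra.adjoin O {alphaHom M 2 E (HorizThree.s3E M E h3M)})
      (wHom M 2 E h2 h2M (alphaHom M 2 E (HorizThree.s3E M E h3M))) := by
  rw [wHom_alpha]
  exact Fermat.Agent.S34.HauptU.E.hwu_s3E M E h3M

end Three

end Literal

end Fermat.Agent.S34.HauptU.Plug
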