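import Fermat.Agent.S34.RootDatum
import Fermat.Agent.S34.HauptU.Plug
import Fermat.Agent.S34.Final

/-!
# S34, `ℓ ∈ {2, 3}`: `HasRootDatum` for the Hauptmodul coordinate, and `Final.RootSmall`

Level `M ℓ`, `r = 5 - ℓ ∣ M`, coordinate `u = α h_r` (the level-`M` Hauptmodul `h_r = 1 / s_r`
seen at level `M ℓ`), swap `w_E = Plug.wHom`.

* `NodalExit M ℓ hℓ hℓM A E π u` : the exit shape of the modular side over one number field
  (a nodal datum for `(π, u)` with the two membership characterisations);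
* `hasRootDatum_of_alpha` : for ANY level-`M` coordinate `u'` with integral `q`-expansions of
  `u'` and `u'⁻¹`, Galois-fixed, `NodalExit … (α u')` gives `RootGlue.HasRootDatum`;
* `hasRootDatum_two`, `hasRootDatum_three` : the instances `u' = h₂` (`ℓ = 3`), `u' = h₃`
  (`ℓ = 2`);
* `rootSmall_of_exits` : `Final.RootSmall` from the two exits over all large number fields.
-/

set_option autoImplicit false
set_option linter.unusedSectionVars false
set_option linter.style.haveILetI false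
set_option synthInstance.maxHeartbeats 400000

open ModularCurve

noncomputable section

namespace Fermat.Agent.S34.HauptU.RootDatumH

open Fermat.Agent.S30 Fermat.Agent.S30.Haupt Fermat.Agent.S18.K1Defs Fermat.Agent.S18.K1Main
open Fermat.Agent.S34.TwoPrimesRank Fermat.Agent.S34.Modular.SwapE Fermat.Agent.S34.TrivModE
open Fermat.Agent.S34.Nodal Fermat.Agent.S34.RootGlue

local notation "Qb" => AlgebraicClosure ℚ
local notation "Gq" => (AlgebraicClosure ℚ ≃ₐ[ℚ] AlgebraicClosure ℚ)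

/-- **Exit shape of the modular side over one number field**: a nodal datum for the coordinate
`u` at level `M ℓ` whose two primes are the centres of the Gauss valuation and of its twist by
the Atkin–Lehner swap `Plug.wHom` (for the canonical `O_E`-algebra structure). -/
def NodalExit (M ℓ : ℕ) [NeZero M] [NeZero ℓ] (hℓ : ℓ.Prime) (hℓM : ¬ ℓ ∣ M)
    (A : ValuationSubring Qb) (E : IntermediateField ℚ Qb) [IsDiscreteValuationRing (OE A E)]
    (π : OE A E) (u : LE (M * ℓ) E) : Prop :=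
  letI := algebraOL (OE A E) E (LE (M * ℓ) E)
  ∃ D : NodalDatum π u,
    (∀ (x : Overlap (OE A E) u)
      (hx : (((x : LE (M * ℓ) E) : LE (M * ℓ) E) : LaurentSeries E) ∈ GaussDVR.V (OE A E) E),
      x ∈ D.P₁ ↔ GaussDVR.red (OE A E) E ⟨_, hx⟩ = 0) ∧
    (∀ (x : Overlap (OE A E) u)
      (hx : ((Plug.wHom M ℓ E hℓ hℓM (x : LE (M * ℓ) E) : LE (M * ℓ) E) : LaurentSeries E)
        ∈ GaussDVR.V (OE A E) E),
      x ∈ D.P₂ ↔ GaussDVR.red (OE A E) E ⟨_, hx⟩ = 0)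

section Generic

variable (M ℓ : ℕ) [NeZero M] [NeZero ℓ] (hℓ : ℓ.Prime) (hℓM : ¬ ℓ ∣ M)
  (A : ValuationSubring Qb) (E : IntermediateField ℚ Qb) [Normal ℚ E]
  [IsDiscreteValuationRing (OE A E)] (π : OE A E)

/-- **`HasRootDatum` for a coordinate coming from level `M`.**  `u'` a level-`M` function such
that `u'` and `u'⁻¹` have integral `q`-expansions, fixed by the coefficientwise Galois action;
`α u'` transcendental with `LE (M ℓ) E / E(α u')` finite. -/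
theorem hasRootDatum_of_alpha (u' : LE M E) (U U' : LaurentSeries (OE A E))
    (hU : (u' : LaurentSeries E) = GaussDVR.iota (OE A E) E U)
    (hU' : ((u'⁻¹ : LE M E) : LaurentSeries E) = GaussDVR.iota (OE A E) E U')
    (htr : Transcendental E (heckeAlphaBar E M ℓ u'))
    (hfd : FiniteDimensional (IntermediateField.adjoin E {heckeAlphaBar E M ℓ u'})
      (LE (M * ℓ) E))
    (hgal : ∀ τ : Gq, galE E M τ u' = u')
    (h : NodalExit M ℓ hℓ hℓM A E π (heckeAlphaBar E M ℓ u')) :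
    HasRootDatum (M * ℓ) A (Fermat.Agent.S34.ToricSwap.wAL M ℓ hℓ hℓM).toRingEquiv E π := by
  letI := algebraOL (OE A E) E (LE (M * ℓ) E)
  obtain ⟨D, hP₁, hP₂⟩ := h
  have hw : Plug.wHom M ℓ E hℓ hℓM (heckeAlphaBar E M ℓ u') = heckeBetaBar E M ℓ u' :=
    Plug.wE_alpha M ℓ E hℓ hℓM u'
  refine ⟨heckeAlphaBar E M ℓ u', Plug.wHom M ℓ E hℓ hℓM, D, htr, hfd, ?_, ?_, ?_, ?_, ?_, ?_,
    hP₁, hP₂⟩
  · intro z
    exact Plug.upE_wE M ℓ E hℓ hℓM z
  · exact Plug.alpha_mem_V M ℓ E u' U hU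
  · have h1 : (heckeAlphaBar E M ℓ u')⁻¹ = heckeAlphaBar E M ℓ u'⁻¹ := (map_inv₀ _ _).symm
    rw [h1]
    exact Plug.alpha_mem_V M ℓ E u'⁻¹ U' hU'
  · rw [hw]
    exact Plug.beta_mem_V M ℓ E u' U hU
  · rw [hw]
    have h1 : (heckeBetaBar E M ℓ u')⁻¹ = heckeBetaBar E M ℓ u'⁻¹ := (map_inv₀ _ _).symm
    rw [h1]
    exact Plug.beta_mem_V M ℓ E u'⁻¹ U' hU'
  · intro τ _
    rw [Plug.galE_alpha, hgal]

end Generic

/-! ### The Hauptmodul coordinates -/

section Haupt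

variable (M : ℕ) [NeZero M] (A : ValuationSubring Qb) (E : IntermediateField ℚ Qb) [Normal ℚ E]
  [IsDiscreteValuationRing (OE A E)] (π : OE A E)

/-- `α h₂` is the Hauptmodul `h₂` of the level `M ℓ`. -/
theorem alpha_h2E_eq (ℓ : ℕ) [NeZero ℓ] (h2M : 2 ∣ M) :
    heckeAlphaBar E M ℓ (HorizTwo.h2E M E h2M)
      = HorizTwo.h2E (M * ℓ) E (Dvd.dvd.mul_right h2M ℓ) := by
  apply Subtype.ext
  rw [coe_heckeAlphaBar, HorizTwo.coe_h2E, HorizTwo.coe_h2E]

/-- `α h₃` is the Hauptmodul `h₃` of the level `M ℓ`. -/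
theorem alpha_h3E_eq (ℓ : ℕ) [NeZero ℓ] (h3M : 3 ∣ M) :
    heckeAlphaBar E M ℓ (HorizThree.h3E M E h3M)
      = HorizThree.h3E (M * ℓ) E (Dvd.dvd.mul_right h3M ℓ) := by
  apply Subtype.ext
  rw [coe_heckeAlphaBar, HorizThree.coe_h3E, HorizThree.coe_h3E]

theorem transcendental_alpha_h2E (ℓ : ℕ) [NeZero ℓ] (h2M : 2 ∣ M) :
    Transcendental E (heckeAlphaBar E M ℓ (HorizTwo.h2E M E h2M)) := by
  rw [alpha_h2E_eq]
  exact HorizTwo.transcendental_h2E (M * ℓ) E _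

theorem transcendental_alpha_h3E (ℓ : ℕ) [NeZero ℓ] (h3M : 3 ∣ M) :
    Transcendental E (heckeAlphaBar E M ℓ (HorizThree.h3E M E h3M)) := by
  rw [alpha_h3E_eq]
  exact HorizThree.transcendental_h3E (M * ℓ) E _

theorem finiteDimensional_alpha_h2E (ℓ : ℕ) [NeZero ℓ] (h2M : 2 ∣ M) :
    FiniteDimensional (IntermediateField.adjoin E {heckeAlphaBar E M ℓ (HorizTwo.h2E M E h2M)})
      (LE (M * ℓ) E) := by
  rw [alpha_h2E_eq]
  haveI := Fermat.Agent.S30.E2Deg.finite_LE (M * ℓ) E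
  exact HorizTwo.finiteDimensional_h2E (M * ℓ) E _ (Fermat.Agent.S30.E2Deg.jE (M * ℓ) E)
    (Fermat.Agent.S30.E2Deg.coe_jE (M * ℓ) E)

theorem finiteDimensional_alpha_h3E (ℓ : ℕ) [NeZero ℓ] (h3M : 3 ∣ M) :
    FiniteDimensional
      (IntermediateField.adjoin E {heckeAlphaBar E M ℓ (HorizThree.h3E M E h3M)})
      (LE (M * ℓ) E) := by
  rw [alpha_h3E_eq]
  haveI := Fermat.Agent.S30.E2Deg.finite_LE (M * ℓ) E
  exact HorizThree.finiteDimensional_h3E (M * ℓ) E _ (Fermat.Agent.S30.E2Deg.jE (M * ℓ) E)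
    (Fermat.Agent.S30.E2Deg.coe_jE (M * ℓ) E)

/-- **`HasRootDatum` for `ℓ = 3`, `2 ∣ M`**: coordinate `u = α h₂`. -/
theorem hasRootDatum_two (h3 : Nat.Prime 3) (h3M : ¬ 3 ∣ M) (h2M : 2 ∣ M)
    (h : NodalExit M 3 h3 h3M A E π (heckeAlphaBar E M 3 (HorizTwo.h2E M E h2M))) :
    HasRootDatum (M * 3) A (Fermat.Agent.S34.ToricSwap.wAL M 3 h3 h3M).toRingEquiv E π :=
  hasRootDatum_of_alpha M 3 h3 h3M A E π (HorizTwo.h2E M E h2M)
    (E2G1Aux.invO (OE A E) Two.s2Z) (Fermat.Agent.S34.HauptU.E.posO (OE A E) Two.s2Z)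
    (Fermat.Agent.S34.HauptU.E.coe_h2E_eq_iota M E h2M)
    (by rw [Fermat.Agent.S34.HauptU.E.h2E_inv]
        exact Fermat.Agent.S34.HauptU.E.coe_s2E_eq_iota M E h2M)
    (transcendental_alpha_h2E M E 3 h2M) (finiteDimensional_alpha_h2E M E 3 h2M)
    (fun τ => Plug.galE_h2E M E τ h2M) h

/-- **`HasRootDatum` for `ℓ = 2`, `3 ∣ M`**: coordinate `u = α h₃`. -/
theorem hasRootDatum_three (h2 : Nat.Prime 2) (h2M : ¬ 2 ∣ M) (h3M : 3 ∣ M)
    (h : NodalExit M 2 h2 h2M A E π (heckeAlphaBar E M 2 (HorizThree.h3E M E h3M))) :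
    HasRootDatum (M * 2) A (Fermat.Agent.S34.ToricSwap.wAL M 2 h2 h2M).toRingEquiv E π :=
  hasRootDatum_of_alpha M 2 h2 h2M A E π (HorizThree.h3E M E h3M)
    (E2G1Aux.invO (OE A E) Three.s3Z) (Fermat.Agent.S34.HauptU.E.posO (OE A E) Three.s3Z)
    (Fermat.Agent.S34.HauptU.E.coe_h3E_eq_iota M E h3M)
    (by rw [Fermat.Agent.S34.HauptU.E.h3E_inv]
        exact Fermat.Agent.S34.HauptU.E.coe_s3E_eq_iota M E h3M)
    (transcendental_alpha_h3E M E 2 h3M) (finiteDimensional_alpha_h3E M E 2 h3M)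
    (fun τ => Plug.galE_h3E M E τ h3M) h

end Haupt

/-! ### `Final.RootSmall` -/

/-- **`Final.RootSmall` from the two nodal exits** (`ℓ = 3`, `2 ∣ M`, coordinate `α h₂`;
`ℓ = 2`, `3 ∣ M`, coordinate `α h₃`) over all sufficiently large number fields. -/
theorem rootSmall_of_exits
    (hTwo : ∀ (M : ℕ) [NeZero M] (h3 : Nat.Prime 3) (h3M : ¬ 3 ∣ M) (h2M : 2 ∣ M)
      (A : ValuationSubring Qb), A.LiesOverPrime 3 →
      ∃ S₀ : Finset Qb, ∀ (E : IntermediateField ℚ Qb) [FiniteDimensional ℚ E] [Normal ℚ E]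
        [IsDiscreteValuationRing (OE A E)], (∀ s ∈ S₀, s ∈ E) →
        ∀ π : OE A E, Irreducible π →
          NodalExit M 3 h3 h3M A E π (heckeAlphaBar E M 3 (HorizTwo.h2E M E h2M)))
    (hThree : ∀ (M : ℕ) [NeZero M] (h2 : Nat.Prime 2) (h2M : ¬ 2 ∣ M) (h3M : 3 ∣ M)
      (A : ValuationSubring Qb), A.LiesOverPrime 2 →
      ∃ S₀ : Finset Qb, ∀ (E : IntermediateField ℚ Qb) [FiniteDimensional ℚ E] [Normal ℚ E]
        [IsDiscreteValuationRing (OE A E)], (∀ s ∈ S₀, s ∈ E) →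
        ∀ π : OE A E, Irreducible π →
          NodalExit M 2 h2 h2M A E π (heckeAlphaBar E M 2 (HorizThree.h3E M E h3M))) :
    Fermat.Agent.S34.Final.RootSmall := by
  intro M ℓ _ _ hℓ hℓM hcase A hA m hm hℓm
  rcases hcase with ⟨rfl, h2M⟩ | ⟨rfl, h3M⟩
  · obtain ⟨S₀, hS₀⟩ := hTwo M hℓ hℓM h2M A hA
    exact injSSRootModular_wAL_of_datum M 3 hℓ hℓM A hA m hm hℓm
      ⟨S₀, fun E _ _ _ hE π hπ => hasRootDatum_two M A E π hℓ hℓM h2M (hS₀ E hE π hπ)⟩
  · obtain ⟨S₀, hS₀⟩ := hThree M hℓ hℓM h3M A hA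
    exact injSSRootModular_wAL_of_datum M 2 hℓ hℓM A hA m hm hℓm
      ⟨S₀, fun E _ _ _ hE π hπ => hasRootDatum_three M A E π hℓ hℓM h3M (hS₀ E hE π hπ)⟩

end Fermat.Agent.S34.HauptU.RootDatumH
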