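import Mathlib
import Fermat.Agent.S34.Modular.ChartZero

/-!
# PROGRAM U, (M5): the nodal datum of a coordinate whose two charts are both `W`-stable

Level-free setting of `S34/TwoPrimesGauss.lean` / `S34/Modular/ChartZero.lean`: `O` a DVR with
uniformiser `ϖ`, `α : L' →+* L`, `σ : L →+* E((q))` a `q`-expansion embedding, `w : L ≃+* L` with
`σ (w (α x)) = (σ (α x))(q^ℓ)`.

For a subset `S ⊆ L` with `σ S ⊆ V` (the Gauss ring) we define the reduction map
`redS : integralClosure O[S] L →+* κ((q))`; for `S = {u}` it is `TwoPrimesGauss.redHom` (by `rfl`),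
for `S = {u, u⁻¹}` it is the reduction `redOv` on the overlap chart `Nodal.Overlap O u`.

* `pInf`, `pZero` : the two Gauss primes `ker (red ∘ σ)`, `ker (red ∘ σ ∘ w)` of the overlap chart;
* `comap_zero_pInf` … : their contractions to the charts `u`, `u⁻¹` are the kernels of
  `TwoPrimesGauss.redInf`, `redZero` (the primes of `Modular/ChartZero.isNodalChart_zero`);
* `isNodalChart_of_eq` : transport of `IsNodalChart` along an equality of coordinates;
* `nodalDatum` : **the `NodalDatum ϖ (α u')`** from `IsNodalChart` on the chart of `α u'` and on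
  the chart of `α v'`, where `α v' = (α u')⁻¹` (for a Hauptmodul `u' = h_r`, `v' = 1/h_r`, both are
  instances of `isNodalChart_zero`; for `u' = j` the second one comes from the cusp analysis).
* `mem_pInf_iff`, `mem_pZero_iff` : membership in terms of `GaussDVR.red`.
-/

set_option autoImplicit false
set_option linter.unusedSectionVars false
set_option linter.style.haveILetI false

noncomputable section

namespace Fermat.Agent.S34.HauptU.Datum

open ModularCurve Polynomial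
open Fermat.Agent.S30 Fermat.Agent.S30.Model.GlueChart Fermat.Agent.S34
  Fermat.Agent.S34.TwoPrimesGauss Fermat.Agent.S34.Nodal

/-! ### Reduction on the integral closure of `O[S]` -/

section Red

variable {O E : Type*} [CommRing O] [IsDomain O] [IsDiscreteValuationRing O] [Field E]
  [Algebra O E] [FaithfulSMul O E] {L : Type*} [Field L] [Algebra O L]
  (σ : L →+* LaurentSeries E)
  (hσO : ∀ r : O, σ (algebraMap O L r) = HahnSeries.C (algebraMap O E r))
  (ϖ : O) (hϖ : Irreducible ϖ) (hσfrac : ∀ x : L, σ x ∈ GaussDVR.fracField O E)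

include hσO in
/-- `σ` maps `O[S]` into the Gauss ring as soon as it maps `S` into it. -/
theorem sigma_adjoin_mem_V (S : Set L) (hS : ∀ s ∈ S, σ s ∈ GaussDVR.V O E) {d : L}
    (hd : d ∈ Algebra.adjoin O S) : σ d ∈ GaussDVR.V O E := by
  induction hd using Algebra.adjoin_induction with
  | mem x hx => exact hS x hx
  | algebraMap r =>
    rw [hσO, ← GaussDVR.iota_C]
    exact GaussDVR.mem_of_int O E _
  | add x y _ _ hx hy =>
    rw [map_add]
    exact Subring.add_mem _ hx hy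
  | mul x y _ _ hx hy =>
    rw [map_mul]
    exact Subring.mul_mem _ hx hy

include hσO hϖ hσfrac in
/-- Elements integral over `O[S]` have `q`-expansion in the Gauss ring. -/
theorem sigma_integral_mem_V (S : Set L) (hS : ∀ s ∈ S, σ s ∈ GaussDVR.V O E) {c : L}
    (hc : IsIntegral (Algebra.adjoin O S) c) : σ c ∈ GaussDVR.V O E := by
  obtain ⟨p, hp, hpc⟩ := hc
  refine GaussDVR.mem_of_isIntegralElem E ϖ hϖ (σ.comp (algebraMap (Algebra.adjoin O S) L))
    (fun d => sigma_adjoin_mem_V σ hσO S hS d.2) (σ c) (hσfrac c) ⟨p, hp, ?_⟩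
  rw [← hom_eval₂, hpc, map_zero]

/-- The integral closure of `O[S]` maps to the Gauss ring. -/
def toVS (S : Set L) (hS : ∀ s ∈ S, σ s ∈ GaussDVR.V O E) :
    integralClosure (Algebra.adjoin O S) L →+* GaussDVR.V O E :=
  (σ.comp (algebraMap (integralClosure (Algebra.adjoin O S) L) L)).codRestrict (GaussDVR.V O E)
    (fun c => sigma_integral_mem_V σ hσO ϖ hϖ hσfrac S hS c.2)

/-- **The reduction map** on the integral closure of `O[S]`. -/
def redS (S : Set L) (hS : ∀ s ∈ S, σ s ∈ GaussDVR.V O E) :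
    integralClosure (Algebra.adjoin O S) L →+* LaurentSeries (IsLocalRing.ResidueField O) :=
  (GaussDVR.red O E).comp (toVS σ hσO ϖ hϖ hσfrac S hS)

theorem redS_apply (S : Set L) (hS : ∀ s ∈ S, σ s ∈ GaussDVR.V O E)
    (c : integralClosure (Algebra.adjoin O S) L) :
    redS σ hσO ϖ hϖ hσfrac S hS c =
      GaussDVR.red O E ⟨σ (c : L), sigma_integral_mem_V σ hσO ϖ hϖ hσfrac S hS c.2⟩ := rfl

/-- For `S = {u}` with integral `q`-expansion, `redS` is `TwoPrimesGauss.redHom`. -/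
theorem redS_singleton (u : L) (U : LaurentSeries O) (hσu : σ u = GaussDVR.iota O E U)
    (hS : ∀ s ∈ ({u} : Set L), σ s ∈ GaussDVR.V O E) (c : Nodal.Chart O u) :
    redS σ hσO ϖ hϖ hσfrac {u} hS c = redHom σ hσO ϖ hϖ hσfrac u U hσu c := rfl

/-- The reduction map on the overlap chart. -/
def redOv (u : L) (hu : σ u ∈ GaussDVR.V O E) (hui : σ u⁻¹ ∈ GaussDVR.V O E) :
    Overlap O u →+* LaurentSeries (IsLocalRing.ResidueField O) :=
  redS σ hσO ϖ hϖ hσfrac {u, u⁻¹} (by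
    rintro s (rfl | rfl)
    · exact hu
    · exact hui)

theorem redOv_apply (u : L) (hu : σ u ∈ GaussDVR.V O E) (hui : σ u⁻¹ ∈ GaussDVR.V O E)
    (x : Overlap O u) (hx : σ (x : L) ∈ GaussDVR.V O E) :
    redOv σ hσO ϖ hϖ hσfrac u hu hui x = GaussDVR.red O E ⟨σ (x : L), hx⟩ := rfl

/-- Restriction of `redOv` to the chart `u`. -/
theorem redOv_toOverlapZero (u : L) (hu : σ u ∈ GaussDVR.V O E) (hui : σ u⁻¹ ∈ GaussDVR.V O E)
    (U : LaurentSeries O) (hσu : σ u = GaussDVR.iota O E U) (c : Nodal.Chart O u) :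
    redOv σ hσO ϖ hϖ hσfrac u hu hui (toOverlapZero O u c) =
      redHom σ hσO ϖ hϖ hσfrac u U hσu c := by
  show GaussDVR.red O E ⟨σ ((toOverlapZero O u c : Overlap O u) : L), _⟩ =
    GaussDVR.red O E ⟨σ (c : L), _⟩
  rfl

/-- Restriction of `redOv` to the chart `u⁻¹`. -/
theorem redOv_toOverlapInf (u : L) (hu : σ u ∈ GaussDVR.V O E) (hui : σ u⁻¹ ∈ GaussDVR.V O E)
    (U' : LaurentSeries O) (hσu : σ u⁻¹ = GaussDVR.iota O E U') (c : Nodal.Chart O u⁻¹) :
    redOv σ hσO ϖ hϖ hσfrac u hu hui (toOverlapInf O u c) =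
      redHom σ hσO ϖ hϖ hσfrac u⁻¹ U' hσu c := by
  show GaussDVR.red O E ⟨σ ((toOverlapInf O u c : Overlap O u) : L), _⟩ =
    GaussDVR.red O E ⟨σ (c : L), _⟩
  rfl

end Red

/-! ### Transport of `IsNodalChart` along an equality of coordinates -/

section Transport

variable {O L : Type*} [CommRing O] [Field L] [Algebra O L]

/-- `IsNodalChart` only depends on the coordinate up to equality, and on the two primes as sets
of elements of `L`. -/
theorem isNodalChart_of_eq {π : O} {t t' : L} (h : t = t')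
    {p₁ p₂ : Ideal (Nodal.Chart O t)} {q₁ q₂ : Ideal (Nodal.Chart O t')}
    (h₁ : ∀ (x : L) (hx : IsIntegral (Algebra.adjoin O ({t} : Set L)) x)
      (hx' : IsIntegral (Algebra.adjoin O ({t'} : Set L)) x),
      (⟨x, hx⟩ : Nodal.Chart O t) ∈ p₁ ↔ (⟨x, hx'⟩ : Nodal.Chart O t') ∈ q₁)
    (h₂ : ∀ (x : L) (hx : IsIntegral (Algebra.adjoin O ({t} : Set L)) x)
      (hx' : IsIntegral (Algebra.adjoin O ({t'} : Set L)) x),
      (⟨x, hx⟩ : Nodal.Chart O t) ∈ p₂ ↔ (⟨x, hx'⟩ : Nodal.Chart O t') ∈ q₂)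
    (hN : IsNodalChart π t p₁ p₂) : IsNodalChart π t' q₁ q₂ := by
  subst h
  have e₁ : p₁ = q₁ := Ideal.ext fun x => h₁ x.1 x.2 x.2
  have e₂ : p₂ = q₂ := Ideal.ext fun x => h₂ x.1 x.2 x.2
  rw [← e₁, ← e₂]
  exact hN

end Transport

/-! ### The two Gauss primes of the overlap chart and the nodal datum -/

section Main

variable {O E : Type*} [CommRing O] [IsDomain O] [IsDiscreteValuationRing O] [Field E]
  [Algebra O E] [FaithfulSMul O E]
  {L' L : Type*} [Field L'] [Field L] [Algebra O L'] [Algebra O L]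
  (ϖ : O) (hϖ : Irreducible ϖ)
  (α : L' →+* L)
  (σ : L →+* LaurentSeries E)
  (hσO : ∀ r : O, σ (algebraMap O L r) = HahnSeries.C (algebraMap O E r))
  (hσfrac : ∀ x : L, σ x ∈ GaussDVR.fracField O E)
  (u' : L') (U : LaurentSeries O) (hσu : σ (α u') = GaussDVR.iota O E U)
  (v' : L') (U' : LaurentSeries O) (hσv : σ (α v') = GaussDVR.iota O E U')
  (hv : α v' = (α u')⁻¹)
  (w : L ≃+* L) (hwO : ∀ r : O, w (algebraMap O L r) = algebraMap O L r)
  (ℓ : ℕ) [NeZero ℓ]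
  (hwα : ∀ x : L', σ (w (α x)) = qExpand E ℓ (σ (α x)))

include hσu in
theorem sigma_u_mem_V : σ (α u') ∈ GaussDVR.V O E := by
  rw [hσu]
  exact GaussDVR.mem_of_int O E _

include hσv hv in
theorem sigma_u_inv_mem_V : σ (α u')⁻¹ ∈ GaussDVR.V O E := by
  rw [← hv, hσv]
  exact GaussDVR.mem_of_int O E _

include hσu hwα in
theorem sigma_w_u_mem_V : (σ.comp (w : L →+* L)) (α u') ∈ GaussDVR.V O E := by
  rw [sigmaW_u α σ u' U hσu w ℓ hwα]
  exact GaussDVR.mem_of_int O E _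

include hσv hv hwα in
theorem sigma_w_u_inv_mem_V : (σ.comp (w : L →+* L)) (α u')⁻¹ ∈ GaussDVR.V O E := by
  rw [← hv, sigmaW_u α σ v' U' hσv w ℓ hwα]
  exact GaussDVR.mem_of_int O E _

/-- Reduction at the `∞`-component on the overlap chart. -/
def redOvInf : Overlap O (α u') →+* LaurentSeries (IsLocalRing.ResidueField O) :=
  redOv σ hσO ϖ hϖ hσfrac (α u') (sigma_u_mem_V α σ u' U hσu)
    (sigma_u_inv_mem_V α σ u' v' U' hσv hv)

/-- Reduction at the `0`-component on the overlap chart: reduce `w x`. -/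
def redOvZero : Overlap O (α u') →+* LaurentSeries (IsLocalRing.ResidueField O) :=
  redOv (σ.comp (w : L →+* L)) (sigmaW_O σ hσO w hwO) ϖ hϖ (fun x => hσfrac (w x)) (α u')
    (sigma_w_u_mem_V α σ u' U hσu w ℓ hwα)
    (sigma_w_u_inv_mem_V α σ u' v' U' hσv hv w ℓ hwα)

/-- The Gauss prime `p_∞` of the overlap chart. -/
def pInf : Ideal (Overlap O (α u')) :=
  RingHom.ker (redOvInf ϖ hϖ α σ hσO hσfrac u' U hσu v' U' hσv hv)

/-- The Gauss prime `p_0` of the overlap chart. -/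
def pZero : Ideal (Overlap O (α u')) :=
  RingHom.ker (redOvZero ϖ hϖ α σ hσO hσfrac u' U hσu v' U' hσv hv w hwO ℓ hwα)

instance pInf_isPrime : (pInf ϖ hϖ α σ hσO hσfrac u' U hσu v' U' hσv hv).IsPrime :=
  RingHom.ker_isPrime _

instance pZero_isPrime :
    (pZero ϖ hϖ α σ hσO hσfrac u' U hσu v' U' hσv hv w hwO ℓ hwα).IsPrime :=
  RingHom.ker_isPrime _

/-- Membership in `p_∞`: the reduction of the `q`-expansion vanishes. -/
theorem mem_pInf_iff (x : Overlap O (α u')) (hx : σ (x : L) ∈ GaussDVR.V O E) :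
    x ∈ pInf ϖ hϖ α σ hσO hσfrac u' U hσu v' U' hσv hv ↔
      GaussDVR.red O E ⟨σ (x : L), hx⟩ = 0 := Iff.rfl

/-- Membership in `p_0`: the reduction of the `q`-expansion of `w x` vanishes. -/
theorem mem_pZero_iff (x : Overlap O (α u')) (hx : σ (w (x : L)) ∈ GaussDVR.V O E) :
    x ∈ pZero ϖ hϖ α σ hσO hσfrac u' U hσu v' U' hσv hv w hwO ℓ hwα ↔
      GaussDVR.red O E ⟨σ (w (x : L)), hx⟩ = 0 := Iff.rfl

include hσO hϖ hσfrac hσu hσv hv in
/-- Every element of the overlap chart has `q`-expansion in the Gauss ring. -/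
theorem sigma_overlap_mem_V (x : Overlap O (α u')) : σ (x : L) ∈ GaussDVR.V O E :=
  sigma_integral_mem_V σ hσO ϖ hϖ hσfrac {α u', (α u')⁻¹} (by
    rintro s (rfl | rfl)
    · exact sigma_u_mem_V α σ u' U hσu
    · exact sigma_u_inv_mem_V α σ u' v' U' hσv hv) x.2

include hσO hϖ hσfrac hσu hσv hv hwO hwα in
/-- Every element of the overlap chart has `q`-expansion of its `w`-image in the Gauss ring. -/
theorem sigma_w_overlap_mem_V (x : Overlap O (α u')) : σ (w (x : L)) ∈ GaussDVR.V O E :=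
  sigma_integral_mem_V (σ.comp (w : L →+* L)) (sigmaW_O σ hσO w hwO) ϖ hϖ
    (fun x => hσfrac (w x)) {α u', (α u')⁻¹} (by
    rintro s (rfl | rfl)
    · exact sigma_w_u_mem_V α σ u' U hσu w ℓ hwα
    · exact sigma_w_u_inv_mem_V α σ u' v' U' hσv hv w ℓ hwα) x.2

/-- The contraction of `p_∞` to the chart `α u'` is the kernel of `redInf`. -/
theorem comap_zero_pInf :
    (pInf ϖ hϖ α σ hσO hσfrac u' U hσu v' U' hσv hv).comap (toOverlapZero O (α u')) =
      RingHom.ker (redInf ϖ hϖ α σ hσO hσfrac u' U hσu) := by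
  ext c
  rw [Ideal.mem_comap, RingHom.mem_ker]
  show redOv σ hσO ϖ hϖ hσfrac (α u') _ _ (toOverlapZero O (α u') c) = 0 ↔ _
  rw [redOv_toOverlapZero σ hσO ϖ hϖ hσfrac (α u') _ _ U hσu c]
  exact Iff.rfl

/-- The contraction of `p_0` to the chart `α u'` is the kernel of `redZero`. -/
theorem comap_zero_pZero :
    (pZero ϖ hϖ α σ hσO hσfrac u' U hσu v' U' hσv hv w hwO ℓ hwα).comap
        (toOverlapZero O (α u')) =
      RingHom.ker (redZero ϖ hϖ α σ hσO hσfrac u' U hσu w hwO ℓ hwα) := by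
  ext c
  rw [Ideal.mem_comap, RingHom.mem_ker]
  show redOv (σ.comp (w : L →+* L)) (sigmaW_O σ hσO w hwO) ϖ hϖ (fun x => hσfrac (w x))
    (α u') _ _ (toOverlapZero O (α u') c) = 0 ↔ _
  rw [redOv_toOverlapZero (σ.comp (w : L →+* L)) (sigmaW_O σ hσO w hwO) ϖ hϖ
    (fun x => hσfrac (w x)) (α u') _ _ (qExpand O ℓ U) (sigmaW_u α σ u' U hσu w ℓ hwα) c]
  exact Iff.rfl

/-- Elementwise comparison of `p_∞` on the chart `(α u')⁻¹` with the kernel of `redInf` on the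
chart `α v'`. -/
theorem mem_comap_inf_pInf (x : L) (hx : IsIntegral (Algebra.adjoin O ({α v'} : Set L)) x)
    (hx' : IsIntegral (Algebra.adjoin O ({(α u')⁻¹} : Set L)) x) :
    (⟨x, hx⟩ : Nodal.Chart O (α v')) ∈ RingHom.ker (redInf ϖ hϖ α σ hσO hσfrac v' U' hσv) ↔
      (⟨x, hx'⟩ : Nodal.Chart O (α u')⁻¹) ∈
        (pInf ϖ hϖ α σ hσO hσfrac u' U hσu v' U' hσv hv).comap (toOverlapInf O (α u')) := by
  rw [Ideal.mem_comap, RingHom.mem_ker]
  have hσi : σ (α u')⁻¹ = GaussDVR.iota O E U' := by rw [← hv, hσv]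
  show _ ↔ redOv σ hσO ϖ hϖ hσfrac (α u') _ _ (toOverlapInf O (α u') ⟨x, hx'⟩) = 0
  rw [redOv_toOverlapInf σ hσO ϖ hϖ hσfrac (α u') _ _ U' hσi ⟨x, hx'⟩]
  show GaussDVR.red O E ⟨σ x, _⟩ = 0 ↔ GaussDVR.red O E ⟨σ x, _⟩ = 0
  exact Iff.rfl

/-- Elementwise comparison of `p_0` on the chart `(α u')⁻¹` with the kernel of `redZero` on the
chart `α v'`. -/
theorem mem_comap_inf_pZero (x : L) (hx : IsIntegral (Algebra.adjoin O ({α v'} : Set L)) x)
    (hx' : IsIntegral (Algebra.adjoin O ({(α u')⁻¹} : Set L)) x) :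
    (⟨x, hx⟩ : Nodal.Chart O (α v')) ∈
        RingHom.ker (redZero ϖ hϖ α σ hσO hσfrac v' U' hσv w hwO ℓ hwα) ↔
      (⟨x, hx'⟩ : Nodal.Chart O (α u')⁻¹) ∈
        (pZero ϖ hϖ α σ hσO hσfrac u' U hσu v' U' hσv hv w hwO ℓ hwα).comap
          (toOverlapInf O (α u')) := by
  rw [Ideal.mem_comap, RingHom.mem_ker]
  have hσi : (σ.comp (w : L →+* L)) (α u')⁻¹ = GaussDVR.iota O E (qExpand O ℓ U') := by
    rw [← hv]
    exact sigmaW_u α σ v' U' hσv w ℓ hwα
  show _ ↔ redOv (σ.comp (w : L →+* L)) (sigmaW_O σ hσO w hwO) ϖ hϖ (fun x => hσfrac (w x))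
    (α u') _ _ (toOverlapInf O (α u') ⟨x, hx'⟩) = 0
  rw [redOv_toOverlapInf (σ.comp (w : L →+* L)) (sigmaW_O σ hσO w hwO) ϖ hϖ
    (fun x => hσfrac (w x)) (α u') _ _ (qExpand O ℓ U') hσi ⟨x, hx'⟩]
  show GaussDVR.red O E ⟨σ (w x), _⟩ = 0 ↔ GaussDVR.red O E ⟨σ (w x), _⟩ = 0
  exact Iff.rfl

/-- **The nodal datum** of the coordinate `α u'`, from the nodal charts of `α u'` and of
`α v' = (α u')⁻¹` for the Gauss primes of `TwoPrimesGauss` (`Modular/ChartZero`). -/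
def nodalDatum
    (h0 : IsNodalChart ϖ (α u') (RingHom.ker (redInf ϖ hϖ α σ hσO hσfrac u' U hσu))
      (RingHom.ker (redZero ϖ hϖ α σ hσO hσfrac u' U hσu w hwO ℓ hwα)))
    (hinf : IsNodalChart ϖ (α v') (RingHom.ker (redInf ϖ hϖ α σ hσO hσfrac v' U' hσv))
      (RingHom.ker (redZero ϖ hϖ α σ hσO hσfrac v' U' hσv w hwO ℓ hwα))) :
    NodalDatum ϖ (α u') where
  P₁ := pInf ϖ hϖ α σ hσO hσfrac u' U hσu v' U' hσv hv
  P₂ := pZero ϖ hϖ α σ hσO hσfrac u' U hσu v' U' hσv hv w hwO ℓ hwα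
  isPrime₁ := inferInstance
  isPrime₂ := inferInstance
  chartZero := by
    rw [comap_zero_pInf, comap_zero_pZero]
    exact h0
  chartInf :=
    isNodalChart_of_eq hv
      (fun x hx hx' => mem_comap_inf_pInf ϖ hϖ α σ hσO hσfrac u' U hσu v' U' hσv hv x hx hx')
      (fun x hx hx' =>
        mem_comap_inf_pZero ϖ hϖ α σ hσO hσfrac u' U hσu v' U' hσv hv w hwO ℓ hwα x hx hx')
      hinf

@[simp]
theorem nodalDatum_P₁
    (h0 : IsNodalChart ϖ (α u') (RingHom.ker (redInf ϖ hϖ α σ hσO hσfrac u' U hσu))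
      (RingHom.ker (redZero ϖ hϖ α σ hσO hσfrac u' U hσu w hwO ℓ hwα)))
    (hinf : IsNodalChart ϖ (α v') (RingHom.ker (redInf ϖ hϖ α σ hσO hσfrac v' U' hσv))
      (RingHom.ker (redZero ϖ hϖ α σ hσO hσfrac v' U' hσv w hwO ℓ hwα))) :
    (nodalDatum ϖ hϖ α σ hσO hσfrac u' U hσu v' U' hσv hv w hwO ℓ hwα h0 hinf).P₁ =
      pInf ϖ hϖ α σ hσO hσfrac u' U hσu v' U' hσv hv := rfl

@[simp]
theorem nodalDatum_P₂
    (h0 : IsNodalChart ϖ (α u') (RingHom.ker (redInf ϖ hϖ α σ hσO hσfrac u' U hσu))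
      (RingHom.ker (redZero ϖ hϖ α σ hσO hσfrac u' U hσu w hwO ℓ hwα)))
    (hinf : IsNodalChart ϖ (α v') (RingHom.ker (redInf ϖ hϖ α σ hσO hσfrac v' U' hσv))
      (RingHom.ker (redZero ϖ hϖ α σ hσO hσfrac v' U' hσv w hwO ℓ hwα))) :
    (nodalDatum ϖ hϖ α σ hσO hσfrac u' U hσu v' U' hσv hv w hwO ℓ hwα h0 hinf).P₂ =
      pZero ϖ hϖ α σ hσO hσfrac u' U hσu v' U' hσv hv w hwO ℓ hwα := rfl

/-- **The nodal datum of a coordinate with two `W`-stable charts** (Hauptmodul case): both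
charts are instances of `Modular.ChartZero.isNodalChart_zero`, for `(u', U)` and for
`(v', U')`, `α v' = (α u')⁻¹`. -/
def nodalDatumOfPackages
    (hαO : ∀ r : O, α (algebraMap O L' r) = algebraMap O L r)
    (hww : ∀ z : L, w (w z) = z) (hℓ : 2 ≤ ℓ)
    -- the chart of `u'`
    (hprime : Prime (piC u' ϖ))
    (hcop : IsCoprime (GaussDVR.rho O U).order (ℓ : ℤ)) (hord : (GaussDVR.rho O U).order ≠ 0)
    (hfrob : qExpand (IsLocalRing.ResidueField O) ℓ (GaussDVR.rho O U) = GaussDVR.rho O U ^ ℓ)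
    (hwu : IsIntegral (Algebra.adjoin O {α u'}) (w (α u')))
    (hrank : ∀ c : Option (Fin 1 ⊕ Fin ℓ) → TwoPrimesGauss.Chart O (α u'),
      ∃ a : Option (Fin 1 ⊕ Fin ℓ) → TwoPrimesGauss.Chart O u',
        a ≠ 0 ∧ ∑ i, incl α hαO u' (a i) * c i = 0)
    (hD : IsDedekindDomain (TwoPrimesGauss.Chart O u' ⧸ Ideal.span {piC u' ϖ}))
    (hK : ∀ r : TwoPrimesGauss.Chart O u', ∃ s : TwoPrimesGauss.Chart O u',
      qExpand (IsLocalRing.ResidueField O) ℓ (redM ϖ hϖ α hαO σ hσO hσfrac u' U hσu r) =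
        redM ϖ hϖ α hαO σ hσO hσfrac u' U hσu s ^ ℓ)
    -- the chart of `v'`
    (hprime' : Prime (piC v' ϖ))
    (hcop' : IsCoprime (GaussDVR.rho O U').order (ℓ : ℤ))
    (hord' : (GaussDVR.rho O U').order ≠ 0)
    (hfrob' : qExpand (IsLocalRing.ResidueField O) ℓ (GaussDVR.rho O U') = GaussDVR.rho O U' ^ ℓ)
    (hwu' : IsIntegral (Algebra.adjoin O {α v'}) (w (α v')))
    (hrank' : ∀ c : Option (Fin 1 ⊕ Fin ℓ) → TwoPrimesGauss.Chart O (α v'),
      ∃ a : Option (Fin 1 ⊕ Fin ℓ) → TwoPrimesGauss.Chart O v',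
        a ≠ 0 ∧ ∑ i, incl α hαO v' (a i) * c i = 0)
    (hD' : IsDedekindDomain (TwoPrimesGauss.Chart O v' ⧸ Ideal.span {piC v' ϖ}))
    (hK' : ∀ r : TwoPrimesGauss.Chart O v', ∃ s : TwoPrimesGauss.Chart O v',
      qExpand (IsLocalRing.ResidueField O) ℓ (redM ϖ hϖ α hαO σ hσO hσfrac v' U' hσv r) =
        redM ϖ hϖ α hαO σ hσO hσfrac v' U' hσv s ^ ℓ) :
    NodalDatum ϖ (α u') :=
  nodalDatum ϖ hϖ α σ hσO hσfrac u' U hσu v' U' hσv hv w hwO ℓ hwα
    (Modular.ChartZero.isNodalChart_zero ϖ hϖ α hαO σ hσO hσfrac u' U hσu w hwO ℓ hwα hww hprime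
      hcop hord hℓ hfrob hwu hrank hD hK)
    (Modular.ChartZero.isNodalChart_zero ϖ hϖ α hαO σ hσO hσfrac v' U' hσv w hwO ℓ hwα hww hprime'
      hcop' hord' hℓ hfrob' hwu' hrank' hD' hK')

end Main

end Fermat.Agent.S34.HauptU.Datum
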