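import Fermat.Agent.S34.HauptU.RootDatumH
import Fermat.Agent.S34.HauptU.Datum
import Fermat.Agent.S34.HauptU.LevelMAux
import Fermat.Agent.S34.Modular.KroneckerChart
import Fermat.Agent.Lib.Frobenius

/-!
# S34, `ℓ ∈ {2, 3}`: the nodal datum of the Hauptmodul coordinate over number fields

Level `M ℓ`, `r = 5 - ℓ ∣ M`, coordinate `u = α h_r`, chart at infinity `α s_r`.

* `nodalExit_of_charts` : `HauptU.Datum.nodalDatum` in the Plug names gives `NodalExit`;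
* `nodalExit_of_chartFacts` : both charts from `Modular.ChartZero.isNodalChart_zero`, for any
  pair of level-`M` coordinates `(u', v')`, `v' = u'⁻¹`, with the level-`M` facts
  `LevelMAux.ChartFacts`, integral rational `q`-expansions, and `w (α u')`, `w (α v')` integral;
* `exists_nodalExit_two`, `exists_nodalExit_three` : the instances `(h₂, s₂)`, `ℓ = 3` and
  `(h₃, s₃)`, `ℓ = 2`, uniformly in the number field;
* `rootSmall : Final.RootSmall`.
-/

set_option autoImplicit false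
set_option linter.unusedSectionVars false
set_option linter.style.haveILetI false
set_option synthInstance.maxHeartbeats 400000

open ModularCurve

noncomputable section

namespace Fermat.Agent.S34.HauptU.DatumH

open Fermat.Agent.S30 Fermat.Agent.S30.Haupt Fermat.Agent.S18.K1Defs Fermat.Agent.S18.K1Main
open Fermat.Agent.S34.TwoPrimesRank Fermat.Agent.S34.Modular.SwapE Fermat.Agent.S34.TrivModE
open Fermat.Agent.S34.Nodal Fermat.Agent.S34.RootGlue Fermat.Agent.S34.TwoPrimesGauss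
open Fermat.Agent.S34.HauptU.RootDatumH

local notation "Qb" => AlgebraicClosure ℚ
local notation "Gq" => (AlgebraicClosure ℚ ≃ₐ[ℚ] AlgebraicClosure ℚ)

/-- **The junction `HauptU.Datum.nodalDatum ⟹ NodalExit`** in the Plug names. -/
theorem nodalExit_of_charts (M ℓ : ℕ) [NeZero M] [NeZero ℓ] (hℓ : ℓ.Prime) (hℓM : ¬ ℓ ∣ M)
    (A : ValuationSubring Qb) (E : IntermediateField ℚ Qb) [IsDiscreteValuationRing (OE A E)]
    (π : OE A E) (hπ : Irreducible π)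
    (u' : LE M E) (U : LaurentSeries (OE A E))
    (hσu : Plug.sigmaHom (M * ℓ) E (alphaHom M ℓ E u') = GaussDVR.iota (OE A E) E U)
    (v' : LE M E) (U' : LaurentSeries (OE A E))
    (hσv : Plug.sigmaHom (M * ℓ) E (alphaHom M ℓ E v') = GaussDVR.iota (OE A E) E U')
    (hv : alphaHom M ℓ E v' = (alphaHom M ℓ E u')⁻¹)
    (h0 : letI := algebraOL (OE A E) E (LE M E)
      letI := algebraOL (OE A E) E (LE (M * ℓ) E)
      haveI := isScalarTower_OL (OE A E) E (LE (M * ℓ) E)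
      IsNodalChart π (alphaHom M ℓ E u')
        (RingHom.ker (redInf π hπ (alphaHom M ℓ E) (Plug.sigmaHom (M * ℓ) E)
          (Plug.sigmaHom_algebraMap (M * ℓ) E) (Plug.sigmaHom_mem_fracField (M * ℓ) E A)
          u' U hσu))
        (RingHom.ker (redZero π hπ (alphaHom M ℓ E) (Plug.sigmaHom (M * ℓ) E)
          (Plug.sigmaHom_algebraMap (M * ℓ) E) (Plug.sigmaHom_mem_fracField (M * ℓ) E A)
          u' U hσu (Plug.wHom M ℓ E hℓ hℓM) (Plug.wHom_algebraMap M ℓ E hℓ hℓM) ℓ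
          (Plug.sigmaHom_wHom_alpha M ℓ E hℓ hℓM))))
    (hinf : letI := algebraOL (OE A E) E (LE M E)
      letI := algebraOL (OE A E) E (LE (M * ℓ) E)
      haveI := isScalarTower_OL (OE A E) E (LE (M * ℓ) E)
      IsNodalChart π (alphaHom M ℓ E v')
        (RingHom.ker (redInf π hπ (alphaHom M ℓ E) (Plug.sigmaHom (M * ℓ) E)
          (Plug.sigmaHom_algebraMap (M * ℓ) E) (Plug.sigmaHom_mem_fracField (M * ℓ) E A)
          v' U' hσv))
        (RingHom.ker (redZero π hπ (alphaHom M ℓ E) (Plug.sigmaHom (M * ℓ) E)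
          (Plug.sigmaHom_algebraMap (M * ℓ) E) (Plug.sigmaHom_mem_fracField (M * ℓ) E A)
          v' U' hσv (Plug.wHom M ℓ E hℓ hℓM) (Plug.wHom_algebraMap M ℓ E hℓ hℓM) ℓ
          (Plug.sigmaHom_wHom_alpha M ℓ E hℓ hℓM)))) :
    NodalExit M ℓ hℓ hℓM A E π (heckeAlphaBar E M ℓ u') := by
  letI := algebraOL (OE A E) E (LE M E)
  letI := algebraOL (OE A E) E (LE (M * ℓ) E)
  haveI := isScalarTower_OL (OE A E) E (LE (M * ℓ) E)
  exact ⟨Datum.nodalDatum π hπ (alphaHom M ℓ E) (Plug.sigmaHom (M * ℓ) E)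
      (Plug.sigmaHom_algebraMap (M * ℓ) E) (Plug.sigmaHom_mem_fracField (M * ℓ) E A)
      u' U hσu v' U' hσv hv (Plug.wHom M ℓ E hℓ hℓM) (Plug.wHom_algebraMap M ℓ E hℓ hℓM) ℓ
      (Plug.sigmaHom_wHom_alpha M ℓ E hℓ hℓM) h0 hinf,
    fun x hx => Datum.mem_pInf_iff π hπ (alphaHom M ℓ E) (Plug.sigmaHom (M * ℓ) E)
      (Plug.sigmaHom_algebraMap (M * ℓ) E) (Plug.sigmaHom_mem_fracField (M * ℓ) E A)
      u' U hσu v' U' hσv hv x hx,
    fun x hx => Datum.mem_pZero_iff π hπ (alphaHom M ℓ E) (Plug.sigmaHom (M * ℓ) E)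
      (Plug.sigmaHom_algebraMap (M * ℓ) E) (Plug.sigmaHom_mem_fracField (M * ℓ) E A)
      u' U hσu v' U' hσv hv (Plug.wHom M ℓ E hℓ hℓM) (Plug.wHom_algebraMap M ℓ E hℓ hℓM) ℓ
      (Plug.sigmaHom_wHom_alpha M ℓ E hℓ hℓM) x hx⟩

/-- **`NodalExit` from the level-`M` chart facts**: both charts of `α u'` are `W`-stable
(`w (α u')` integral over `O[α u']`, `w (α v')` integral over `O[α v']`, `v' = u'⁻¹`). -/
theorem nodalExit_of_chartFacts (M ℓ : ℕ) [NeZero M] [NeZero ℓ] (hℓ : ℓ.Prime) (hℓM : ¬ ℓ ∣ M)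
    (A : ValuationSubring Qb) (hA : A.LiesOverPrime ℓ) (E : IntermediateField ℚ Qb)
    [Normal ℚ E] [IsDiscreteValuationRing (OE A E)] (π : OE A E) (hπ : Irreducible π)
    {φ : Gq} (hφ : A.IsFrobeniusAt φ ℓ) (u' v' : LE M E)
    (hF : letI := algebraOL (OE A E) E (LE M E)
      LevelMAux.ChartFacts E π u' v')
    (U U' : LaurentSeries (OE A E))
    (hU : (u' : LaurentSeries E) = GaussDVR.iota (OE A E) E U)
    (hU' : (v' : LaurentSeries E) = GaussDVR.iota (OE A E) E U')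
    (hcop : IsCoprime (GaussDVR.rho (OE A E) U).order (ℓ : ℤ))
    (hord : (GaussDVR.rho (OE A E) U).order ≠ 0)
    (hfrob : qExpand (IsLocalRing.ResidueField (OE A E)) ℓ (GaussDVR.rho (OE A E) U)
      = GaussDVR.rho (OE A E) U ^ ℓ)
    (hcop' : IsCoprime (GaussDVR.rho (OE A E) U').order (ℓ : ℤ))
    (hord' : (GaussDVR.rho (OE A E) U').order ≠ 0)
    (hfrob' : qExpand (IsLocalRing.ResidueField (OE A E)) ℓ (GaussDVR.rho (OE A E) U')
      = GaussDVR.rho (OE A E) U' ^ ℓ)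
    (hwu : letI := algebraOL (OE A E) E (LE (M * ℓ) E)
      IsIntegral (Algebra.adjoin (OE A E) {alphaHom M ℓ E u'})
        (Plug.wHom M ℓ E hℓ hℓM (alphaHom M ℓ E u')))
    (hwu' : letI := algebraOL (OE A E) E (LE (M * ℓ) E)
      IsIntegral (Algebra.adjoin (OE A E) {alphaHom M ℓ E v'})
        (Plug.wHom M ℓ E hℓ hℓM (alphaHom M ℓ E v')))
    (x₀ x₀' : LaurentSeries ℚ) (hx₀ : (u' : LaurentSeries E) = coeffEmb E x₀)
    (hx₀' : (v' : LaurentSeries E) = coeffEmb E x₀') :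
    NodalExit M ℓ hℓ hℓM A E π (heckeAlphaBar E M ℓ u') := by
  letI := algebraOL (OE A E) E (LE M E)
  haveI := isScalarTower_OL (OE A E) E (LE M E)
  letI := algebraOL (OE A E) E (LE (M * ℓ) E)
  haveI := isScalarTower_OL (OE A E) E (LE (M * ℓ) E)
  have hσu : Plug.sigmaHom (M * ℓ) E (alphaHom M ℓ E u') = GaussDVR.iota (OE A E) E U := by
    rw [Plug.sigmaHom_apply]
    exact Plug.coe_alpha_eq_iota M ℓ E u' U hU
  have hσv : Plug.sigmaHom (M * ℓ) E (alphaHom M ℓ E v') = GaussDVR.iota (OE A E) E U' := by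
    rw [Plug.sigmaHom_apply]
    exact Plug.coe_alpha_eq_iota M ℓ E v' U' hU'
  have hv : alphaHom M ℓ E v' = (alphaHom M ℓ E u')⁻¹ := by
    rw [hF.inv_eq, map_inv₀]
  have hσα : ∀ x : LE M E,
      Plug.sigmaHom (M * ℓ) E (alphaHom M ℓ E x) = (x : LaurentSeries E) := by
    intro x
    rw [Plug.sigmaHom_apply]
    exact coe_heckeAlphaBar M ℓ x
  haveI := hF.finite
  haveI := hF.finite_inv
  refine nodalExit_of_charts M ℓ hℓ hℓM A E π hπ u' U hσu v' U' hσv hv ?_ ?_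
  · exact Modular.ChartZero.isNodalChart_zero π hπ (alphaHom M ℓ E)
      (alphaHom_algebraMap M ℓ E) (Plug.sigmaHom (M * ℓ) E)
      (Plug.sigmaHom_algebraMap (M * ℓ) E) (Plug.sigmaHom_mem_fracField (M * ℓ) E A)
      u' U hσu (Plug.wHom M ℓ E hℓ hℓM) (Plug.wHom_algebraMap M ℓ E hℓ hℓM) ℓ
      (Plug.sigmaHom_wHom_alpha M ℓ E hℓ hℓM) (Plug.wHom_wHom M ℓ E hℓ hℓM)
      hF.prime_zero hcop hord hℓ.two_le hfrob hwu
      (hrank_modular_of_finite M ℓ E hℓ hℓM u') hF.dedekind_zero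
      (Modular.KroneckerChart.hK_redM_of_coeffEmb A E ℓ hℓ hA hφ M π hπ (alphaHom M ℓ E)
        (alphaHom_algebraMap M ℓ E) (Plug.sigmaHom (M * ℓ) E)
        (Plug.sigmaHom_algebraMap (M * ℓ) E) (Plug.sigmaHom_mem_fracField (M * ℓ) E A)
        u' U hσu hσα x₀ hx₀)
  · exact Modular.ChartZero.isNodalChart_zero π hπ (alphaHom M ℓ E)
      (alphaHom_algebraMap M ℓ E) (Plug.sigmaHom (M * ℓ) E)
      (Plug.sigmaHom_algebraMap (M * ℓ) E) (Plug.sigmaHom_mem_fracField (M * ℓ) E A)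
      v' U' hσv (Plug.wHom M ℓ E hℓ hℓM) (Plug.wHom_algebraMap M ℓ E hℓ hℓM) ℓ
      (Plug.sigmaHom_wHom_alpha M ℓ E hℓ hℓM) (Plug.wHom_wHom M ℓ E hℓ hℓM)
      hF.prime_inf hcop' hord' hℓ.two_le hfrob' hwu'
      (hrank_modular_of_finite M ℓ E hℓ hℓM v') hF.dedekind_inf
      (Modular.KroneckerChart.hK_redM_of_coeffEmb A E ℓ hℓ hA hφ M π hπ (alphaHom M ℓ E)
        (alphaHom_algebraMap M ℓ E) (Plug.sigmaHom (M * ℓ) E)
        (Plug.sigmaHom_algebraMap (M * ℓ) E) (Plug.sigmaHom_mem_fracField (M * ℓ) E A)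
        v' U' hσv hσα x₀' hx₀')

/-! ### The Hauptmodul instances -/

/-- **The nodal exit for `ℓ = 3`, `2 ∣ M`**: coordinate `α h₂`, chart at infinity `α s₂`,
uniformly in the number field. -/
theorem exists_nodalExit_two (M : ℕ) [NeZero M] (h3 : Nat.Prime 3) (h3M : ¬ 3 ∣ M)
    (h2M : 2 ∣ M) (A : ValuationSubring Qb) (hA : A.LiesOverPrime 3) :
    ∃ S₀ : Finset Qb, ∀ (E : IntermediateField ℚ Qb) [FiniteDimensional ℚ E] [Normal ℚ E]
      [IsDiscreteValuationRing (OE A E)], (∀ s ∈ S₀, s ∈ E) →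
      ∀ π : OE A E, Irreducible π →
        NodalExit M 3 h3 h3M A E π (heckeAlphaBar E M 3 (HorizTwo.h2E M E h2M)) := by
  haveI : Fact (Nat.Prime 3) := ⟨h3⟩
  obtain ⟨S₀, hS₀⟩ := LevelMAux.exists_levelM_two A M h2M h3M (by norm_num) hA
  obtain ⟨φ, hφ⟩ := Fermat.Agent.Lib.Frobenius.exists_isFrobeniusAt A h3 hA
  refine ⟨S₀, fun E _ _ _ hE π hπ => ?_⟩
  haveI := Fermat.Agent.S34.Modular.Kronecker.charP_residue_OE A E hA
  exact nodalExit_of_chartFacts M 3 h3 h3M A hA E π hπ hφ (HorizTwo.h2E M E h2M)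
    (HorizTwo.s2E M E h2M) (hS₀ E hE π hπ)
    (E2G1Aux.invO (OE A E) Two.s2Z) (Fermat.Agent.S34.HauptU.E.posO (OE A E) Two.s2Z)
    (Fermat.Agent.S34.HauptU.E.coe_h2E_eq_iota M E h2M)
    (Fermat.Agent.S34.HauptU.E.coe_s2E_eq_iota M E h2M)
    (Fermat.Agent.S34.HauptU.E.isCoprime_order_rho_invO Two.s2Z 3)
    (Fermat.Agent.S34.HauptU.E.order_rho_invO_ne_zero Two.s2Z)
    (Fermat.Agent.S34.HauptU.E.qExpand_rho_invO 3 h3 Two.s2Z)
    (Fermat.Agent.S34.HauptU.E.isCoprime_order_rho_posO Two.s2Z Two.coeff_zero_s2Z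
      Two.coeff_one_s2Z 3)
    (Fermat.Agent.S34.HauptU.E.order_rho_posO_ne_zero Two.s2Z Two.coeff_zero_s2Z
      Two.coeff_one_s2Z)
    (Fermat.Agent.S34.HauptU.E.qExpand_rho_posO 3 h3 Two.s2Z)
    (Plug.hwu_h2E M E h3 h3M h2M) (Plug.hwu_s2E M E h3 h3M h2M)
    (Two.s2)⁻¹ Two.s2 (by rw [HorizTwo.coe_h2E, map_inv₀]) (HorizTwo.coe_s2E M E h2M)

/-- **The nodal exit for `ℓ = 2`, `3 ∣ M`**: coordinate `α h₃`, chart at infinity `α s₃`,
uniformly in the number field. -/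
theorem exists_nodalExit_three (M : ℕ) [NeZero M] (h2 : Nat.Prime 2) (h2M : ¬ 2 ∣ M)
    (h3M : 3 ∣ M) (A : ValuationSubring Qb) (hA : A.LiesOverPrime 2) :
    ∃ S₀ : Finset Qb, ∀ (E : IntermediateField ℚ Qb) [FiniteDimensional ℚ E] [Normal ℚ E]
      [IsDiscreteValuationRing (OE A E)], (∀ s ∈ S₀, s ∈ E) →
      ∀ π : OE A E, Irreducible π →
        NodalExit M 2 h2 h2M A E π (heckeAlphaBar E M 2 (HorizThree.h3E M E h3M)) := by
  haveI : Fact (Nat.Prime 2) := ⟨h2⟩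
  obtain ⟨S₀, hS₀⟩ := LevelMAux.exists_levelM_three A M h3M h2M (by norm_num) hA
  obtain ⟨φ, hφ⟩ := Fermat.Agent.Lib.Frobenius.exists_isFrobeniusAt A h2 hA
  refine ⟨S₀, fun E _ _ _ hE π hπ => ?_⟩
  haveI := Fermat.Agent.S34.Modular.Kronecker.charP_residue_OE A E hA
  exact nodalExit_of_chartFacts M 2 h2 h2M A hA E π hπ hφ (HorizThree.h3E M E h3M)
    (HorizThree.s3E M E h3M) (hS₀ E hE π hπ)
    (E2G1Aux.invO (OE A E) Three.s3Z) (Fermat.Agent.S34.HauptU.E.posO (OE A E) Three.s3Z)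
    (Fermat.Agent.S34.HauptU.E.coe_h3E_eq_iota M E h3M)
    (Fermat.Agent.S34.HauptU.E.coe_s3E_eq_iota M E h3M)
    (Fermat.Agent.S34.HauptU.E.isCoprime_order_rho_invO Three.s3Z 2)
    (Fermat.Agent.S34.HauptU.E.order_rho_invO_ne_zero Three.s3Z)
    (Fermat.Agent.S34.HauptU.E.qExpand_rho_invO 2 h2 Three.s3Z)
    (Fermat.Agent.S34.HauptU.E.isCoprime_order_rho_posO Three.s3Z Three.coeff_zero_s3Z
      Three.coeff_one_s3Z 2)
    (Fermat.Agent.S34.HauptU.E.order_rho_posO_ne_zero Three.s3Z Three.coeff_zero_s3Z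
      Three.coeff_one_s3Z)
    (Fermat.Agent.S34.HauptU.E.qExpand_rho_posO 2 h2 Three.s3Z)
    (Plug.hwu_h3E M E h2 h2M h3M) (Plug.hwu_s3E M E h2 h2M h3M)
    (Three.s3)⁻¹ Three.s3 (by rw [HorizThree.coe_h3E, map_inv₀]) (HorizThree.coe_s3E M E h3M)

/-- **`Final.RootSmall`** : the case `ℓ ∈ {2, 3}` of the root statement of S34. -/
theorem rootSmall : Fermat.Agent.S34.Final.RootSmall :=
  rootSmall_of_exits
    (fun M _ h3 h3M h2M A hA => exists_nodalExit_two M h3 h3M h2M A hA)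
    (fun M _ h2 h2M h3M A hA => exists_nodalExit_three M h2 h2M h3M A hA)

end Fermat.Agent.S34.HauptU.DatumH
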