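/-
Program U, (M5), `ℓ = 2`, `3 ∣ M`: the nodal datum of the coordinate `α h₃` at level `M * 2`
over every sufficiently large number field — literally the hypothesis `hThree` of
`RootDatumH.rootSmall_of_exits`.

Both charts (`h₃` and `s₃ = h₃⁻¹`) are instances of `Modular.ChartZero.isNodalChart_zero`
(through `HauptU.Datum.nodalDatumOfPackages`): coordinate package from `HauptU.E` / `HauptU.Plug`,
level-`M` facts from `HauptU.LevelMAux`, rank from `TwoPrimesRank`, Kronecker congruence from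
`Modular.KroneckerChart`.
-/
import Mathlib
import Fermat.Agent.S34.HauptU.Plug
import Fermat.Agent.S34.HauptU.Datum
import Fermat.Agent.S34.HauptU.LevelMAux
import Fermat.Agent.S34.HauptU.RootDatumH
import Fermat.Agent.S34.Modular.KroneckerChart
import Fermat.Agent.Lib.Frobenius

set_option autoImplicit false
set_option linter.unusedSectionVars false
set_option linter.style.haveILetI false
set_option synthInstance.maxHeartbeats 400000
set_option maxHeartbeats 400000

open ModularCurve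

noncomputable section

namespace Fermat.Agent.S34.HauptU.NodalThree

open Fermat.Agent.S30 Fermat.Agent.S30.Haupt Fermat.Agent.S18.K1Defs Fermat.Agent.S18.K1Main
open Fermat.Agent.S34 Fermat.Agent.S34.HauptU Fermat.Agent.S34.TwoPrimesRank
open Fermat.Agent.S34.TwoPrimesGauss Fermat.Agent.S34.Nodal

local notation "Qb" => AlgebraicClosure ℚ
local notation "Gq" => (AlgebraicClosure ℚ ≃ₐ[ℚ] AlgebraicClosure ℚ)

section Three

variable (M : ℕ) [NeZero M] (h3M : 3 ∣ M) (h2 : Nat.Prime 2) (h2M : ¬ 2 ∣ M)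
  (A : ValuationSubring Qb) (E : IntermediateField ℚ Qb) [IsDiscreteValuationRing (OE A E)]

/-- `hσu` at the chart of `h₃`. -/
theorem sigma_alpha_h3E :
    Plug.sigmaHom (M * 2) E (alphaHom M 2 E (HorizThree.h3E M E h3M)) =
      GaussDVR.iota (OE A E) E (E2G1Aux.invO (OE A E) Three.s3Z) :=
  HauptU.E.coe_alpha_h3E M E 2 h3M

/-- `hσu` at the chart of `s₃ = h₃⁻¹`. -/
theorem sigma_alpha_s3E :
    Plug.sigmaHom (M * 2) E (alphaHom M 2 E (HorizThree.s3E M E h3M)) =
      GaussDVR.iota (OE A E) E (HauptU.E.posO (OE A E) Three.s3Z) :=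
  HauptU.E.coe_alpha_s3E M E 2 h3M

/-- `σ ∘ α` is the inclusion into `E((q))`. -/
theorem sigma_alpha (x : LE M E) :
    Plug.sigmaHom (M * 2) E (alphaHom M 2 E x) = (x : LaurentSeries E) :=
  (Plug.sigmaHom_apply (M * 2) E _).trans (coe_heckeAlphaBar M 2 x)

variable [Normal ℚ E]
  [Algebra (OE A E) (LE M E)] [IsScalarTower (OE A E) E (LE M E)]
  [Algebra (OE A E) (LE (M * 2) E)] [IsScalarTower (OE A E) E (LE (M * 2) E)]

/-- The Kronecker congruence on the level-`M` chart of `h₃`. -/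
theorem hK_h3E (hA : A.LiesOverPrime 2) (π : OE A E) (hπ : Irreducible π) :
    ∀ r : TwoPrimesGauss.Chart (OE A E) (HorizThree.h3E M E h3M),
      ∃ s : TwoPrimesGauss.Chart (OE A E) (HorizThree.h3E M E h3M),
      qExpand (IsLocalRing.ResidueField (OE A E)) 2
        (redM π hπ (alphaHom M 2 E) (alphaHom_algebraMap M 2 E) (Plug.sigmaHom (M * 2) E)
          (Plug.sigmaHom_algebraMap (M * 2) E) (Plug.sigmaHom_mem_fracField (M * 2) E A)
          (HorizThree.h3E M E h3M) (E2G1Aux.invO (OE A E) Three.s3Z) (sigma_alpha_h3E M h3M A E) r) =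
        redM π hπ (alphaHom M 2 E) (alphaHom_algebraMap M 2 E) (Plug.sigmaHom (M * 2) E)
          (Plug.sigmaHom_algebraMap (M * 2) E) (Plug.sigmaHom_mem_fracField (M * 2) E A)
          (HorizThree.h3E M E h3M) (E2G1Aux.invO (OE A E) Three.s3Z) (sigma_alpha_h3E M h3M A E) s
          ^ 2 := by
  obtain ⟨φ, hφ⟩ := Fermat.Agent.Lib.Frobenius.exists_isFrobeniusAt A Nat.prime_two hA
  exact Fermat.Agent.S34.Modular.KroneckerChart.hK_redM_of_coeffEmb A E 2 Nat.prime_two hA hφ
      M π hπ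
      (alphaHom M 2 E) (alphaHom_algebraMap M 2 E) (Plug.sigmaHom (M * 2) E)
      (Plug.sigmaHom_algebraMap (M * 2) E) (Plug.sigmaHom_mem_fracField (M * 2) E A)
      (HorizThree.h3E M E h3M) (E2G1Aux.invO (OE A E) Three.s3Z) (sigma_alpha_h3E M h3M A E)
      (sigma_alpha M E) (Three.s3⁻¹)
      (by rw [HorizThree.coe_h3E, map_inv₀])

/-- The Kronecker congruence on the level-`M` chart of `s₃`. -/
theorem hK_s3E (hA : A.LiesOverPrime 2) (π : OE A E) (hπ : Irreducible π) :
    ∀ r : TwoPrimesGauss.Chart (OE A E) (HorizThree.s3E M E h3M),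
      ∃ s : TwoPrimesGauss.Chart (OE A E) (HorizThree.s3E M E h3M),
      qExpand (IsLocalRing.ResidueField (OE A E)) 2
        (redM π hπ (alphaHom M 2 E) (alphaHom_algebraMap M 2 E) (Plug.sigmaHom (M * 2) E)
          (Plug.sigmaHom_algebraMap (M * 2) E) (Plug.sigmaHom_mem_fracField (M * 2) E A)
          (HorizThree.s3E M E h3M) (HauptU.E.posO (OE A E) Three.s3Z) (sigma_alpha_s3E M h3M A E) r) =
        redM π hπ (alphaHom M 2 E) (alphaHom_algebraMap M 2 E) (Plug.sigmaHom (M * 2) E)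
          (Plug.sigmaHom_algebraMap (M * 2) E) (Plug.sigmaHom_mem_fracField (M * 2) E A)
          (HorizThree.s3E M E h3M) (HauptU.E.posO (OE A E) Three.s3Z) (sigma_alpha_s3E M h3M A E) s
          ^ 2 := by
  obtain ⟨φ, hφ⟩ := Fermat.Agent.Lib.Frobenius.exists_isFrobeniusAt A Nat.prime_two hA
  exact Fermat.Agent.S34.Modular.KroneckerChart.hK_redM_of_coeffEmb A E 2 Nat.prime_two hA hφ
      M π hπ
      (alphaHom M 2 E) (alphaHom_algebraMap M 2 E) (Plug.sigmaHom (M * 2) E)
      (Plug.sigmaHom_algebraMap (M * 2) E) (Plug.sigmaHom_mem_fracField (M * 2) E A)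
      (HorizThree.s3E M E h3M) (HauptU.E.posO (OE A E) Three.s3Z) (sigma_alpha_s3E M h3M A E)
      (sigma_alpha M E) Three.s3 (HorizThree.coe_s3E M E h3M)

/-- **The nodal datum of `α h₃`** (level `M * 2`, residue characteristic `2`), from the
level-`M` chart facts. -/
def datumThree (hA : A.LiesOverPrime 2) (π : OE A E) (hπ : Irreducible π)
    (hF : LevelMAux.ChartFacts E π (HorizThree.h3E M E h3M) (HorizThree.s3E M E h3M)) :
    NodalDatum π (alphaHom M 2 E (HorizThree.h3E M E h3M)) :=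
  haveI : CharP (IsLocalRing.ResidueField (OE A E)) 2 :=
    Fermat.Agent.S34.Modular.Kronecker.charP_residue_OE A E hA
  haveI := hF.finite
  haveI := hF.finite_inv
  Datum.nodalDatumOfPackages π hπ (alphaHom M 2 E) (Plug.sigmaHom (M * 2) E)
    (Plug.sigmaHom_algebraMap (M * 2) E) (Plug.sigmaHom_mem_fracField (M * 2) E A)
    (HorizThree.h3E M E h3M) (E2G1Aux.invO (OE A E) Three.s3Z) (sigma_alpha_h3E M h3M A E)
    (HorizThree.s3E M E h3M) (HauptU.E.posO (OE A E) Three.s3Z) (sigma_alpha_s3E M h3M A E)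
    (Plug.alpha_s3E_eq_inv M E 2 h3M) (Plug.wHom M 2 E h2 h2M)
    (Plug.wHom_algebraMap M 2 E h2 h2M) 2
    (Plug.sigmaHom_wHom_alpha M 2 E h2 h2M)
    (alphaHom_algebraMap M 2 E) (Plug.wHom_wHom M 2 E h2 h2M) (by norm_num)
    hF.prime_zero (HauptU.E.isCoprime_order_rho_invO Three.s3Z 2)
    (HauptU.E.order_rho_invO_ne_zero Three.s3Z)
    (HauptU.E.qExpand_rho_invO 2 h2 Three.s3Z)
    (Plug.hwu_h3E M E h2 h2M h3M)
    (hrank_modular_of_finite M 2 E h2 h2M (HorizThree.h3E M E h3M)) hF.dedekind_zero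
    (hK_h3E M h3M A E hA π hπ)
    hF.prime_inf
    (HauptU.E.isCoprime_order_rho_posO Three.s3Z Three.coeff_zero_s3Z Three.coeff_one_s3Z 2)
    (HauptU.E.order_rho_posO_ne_zero Three.s3Z Three.coeff_zero_s3Z Three.coeff_one_s3Z)
    (HauptU.E.qExpand_rho_posO 2 h2 Three.s3Z)
    (Plug.hwu_s3E M E h2 h2M h3M)
    (hrank_modular_of_finite M 2 E h2 h2M (HorizThree.s3E M E h3M)) hF.dedekind_inf
    (hK_s3E M h3M A E hA π hπ)

/-- The first prime of `datumThree` is the centre of the Gauss valuation. -/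
theorem mem_datumThree_P₁ (hA : A.LiesOverPrime 2) (π : OE A E) (hπ : Irreducible π)
    (hF : LevelMAux.ChartFacts E π (HorizThree.h3E M E h3M) (HorizThree.s3E M E h3M))
    (x : Overlap (OE A E) (alphaHom M 2 E (HorizThree.h3E M E h3M)))
    (hx : (((x : LE (M * 2) E) : LE (M * 2) E) : LaurentSeries E) ∈ GaussDVR.V (OE A E) E) :
    x ∈ (datumThree M h3M h2 h2M A E hA π hπ hF).P₁ ↔ GaussDVR.red (OE A E) E ⟨_, hx⟩ = 0 :=
  Iff.rfl

/-- The second prime of `datumThree` is the centre of the Gauss valuation twisted by the swap. -/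
theorem mem_datumThree_P₂ (hA : A.LiesOverPrime 2) (π : OE A E) (hπ : Irreducible π)
    (hF : LevelMAux.ChartFacts E π (HorizThree.h3E M E h3M) (HorizThree.s3E M E h3M))
    (x : Overlap (OE A E) (alphaHom M 2 E (HorizThree.h3E M E h3M)))
    (hx : ((Plug.wHom M 2 E h2 h2M (x : LE (M * 2) E) : LE (M * 2) E) : LaurentSeries E)
      ∈ GaussDVR.V (OE A E) E) :
    x ∈ (datumThree M h3M h2 h2M A E hA π hπ hF).P₂ ↔ GaussDVR.red (OE A E) E ⟨_, hx⟩ = 0 :=
  Iff.rfl

/-- The exit over one number field, for any `O_E`-algebra structures on the three levels. -/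
theorem nodalExit_three (hA : A.LiesOverPrime 2) (π : OE A E) (hπ : Irreducible π)
    (hF : LevelMAux.ChartFacts E π (HorizThree.h3E M E h3M) (HorizThree.s3E M E h3M)) :
    ∃ D : NodalDatum π (heckeAlphaBar E M 2 (HorizThree.h3E M E h3M)),
      (∀ (x : Overlap (OE A E) (heckeAlphaBar E M 2 (HorizThree.h3E M E h3M)))
        (hx : (((x : LE (M * 2) E) : LE (M * 2) E) : LaurentSeries E) ∈ GaussDVR.V (OE A E) E),
        x ∈ D.P₁ ↔ GaussDVR.red (OE A E) E ⟨_, hx⟩ = 0) ∧
      (∀ (x : Overlap (OE A E) (heckeAlphaBar E M 2 (HorizThree.h3E M E h3M)))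
        (hx : ((Plug.wHom M 2 E h2 h2M (x : LE (M * 2) E) : LE (M * 2) E) : LaurentSeries E)
          ∈ GaussDVR.V (OE A E) E),
        x ∈ D.P₂ ↔ GaussDVR.red (OE A E) E ⟨_, hx⟩ = 0) :=
  ⟨datumThree M h3M h2 h2M A E hA π hπ hF,
    fun x hx => mem_datumThree_P₁ M h3M h2 h2M A E hA π hπ hF x hx,
    fun x hx => mem_datumThree_P₂ M h3M h2 h2M A E hA π hπ hF x hx⟩

end Three

/-- **`hThree` of `RootDatumH.rootSmall_of_exits`**: for `ℓ = 2`, `3 ∣ M`, `2 ∤ M`, over every
sufficiently large number field `E` the coordinate `α h₃` of level `M * 2` has a nodal datum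
whose primes are the centres of the Gauss valuation and of its Atkin–Lehner twist. -/
theorem hThree (M : ℕ) [NeZero M] (h2 : Nat.Prime 2) (h2M : ¬ 2 ∣ M) (h3M : 3 ∣ M)
    (A : ValuationSubring Qb) (hA : A.LiesOverPrime 2) :
    ∃ S₀ : Finset Qb, ∀ (E : IntermediateField ℚ Qb) [FiniteDimensional ℚ E] [Normal ℚ E]
      [IsDiscreteValuationRing (OE A E)], (∀ s ∈ S₀, s ∈ E) →
      ∀ π : OE A E, Irreducible π →
        RootDatumH.NodalExit M 2 h2 h2M A E π (heckeAlphaBar E M 2 (HorizThree.h3E M E h3M)) := by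
  haveI : Fact (Nat.Prime 2) := ⟨h2⟩
  obtain ⟨S₀, hS₀⟩ := LevelMAux.exists_levelM_three A M h3M h2M (by norm_num) hA
  refine ⟨S₀, fun E _ _ _ hE π hπ => ?_⟩
  letI := algebraOL (OE A E) E (LE M E)
  letI := algebraOL (OE A E) E (LE (M * 2) E)
  haveI := isScalarTower_OL (OE A E) E (LE M E)
  haveI := isScalarTower_OL (OE A E) E (LE (M * 2) E)
  exact nodalExit_three M h3M h2 h2M A E hA π hπ (hS₀ E hE π hπ)

end Fermat.Agent.S34.HauptU.NodalThree
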